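import Fermat.Agent.RichertValues.RootCount
import Mathlib.NumberTheory.LSeries.PrimesInAP
import Mathlib.Analysis.SpecialFunctions.Exponential

/-!
# The theorem of Mertens for the roots of a polynomial

`∑_{p ≤ n} ρ (p) / p - log log n` converges for an irreducible polynomial, by the prime ideal
theorem with its error term.
-/

set_option autoImplicit false
set_option linter.style.haveILetI false

noncomputable section

open Polynomial NumberField IsDedekindDomain Filter Finset
open scoped Polynomial Topology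

namespace FA.RichertValues

/-- `∑ 1 / (n (log n) ^ 2)` converges. -/
theorem summable_inv_mul_log_sq :
    Summable fun n : ℕ => ((((n + 3 : ℕ) : ℝ)) * Real.log ((n + 2 : ℕ) : ℝ) ^ 2)⁻¹ := by
  obtain ⟨φ, hφ⟩ : ∃ φ : ℕ → ℝ, φ = fun n => (Real.log ((n + 2 : ℕ) : ℝ))⁻¹ := ⟨_, rfl⟩
  refine summable_of_sum_range_le (c := 2 * φ 0) (fun n => by positivity) fun n => ?_
  refine le_trans (sum_le_sum (g := fun i => 2 * (φ i - φ (i + 1))) fun i _ => ?_) ?_
  · obtain ⟨a, ha⟩ : ∃ a : ℝ, a = ((i + 2 : ℕ) : ℝ) := ⟨_, rfl⟩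
    have ha2 : 2 ≤ a := by rw [ha]; exact_mod_cast Nat.le_add_left 2 i
    have e : ((i + 3 : ℕ) : ℝ) = a + 1 := by rw [ha]; push_cast; ring
    simp only [hφ]
    rw [show i + 1 + 2 = i + 3 by omega, e, ← ha]
    have hla : 0 < Real.log a := Real.log_pos (by linarith)
    have hlb : 0 < Real.log (a + 1) := Real.log_pos (by linarith)
    have h1 : 1 / (a + 1) ≤ Real.log (a + 1) - Real.log a := by
      rw [← Real.log_div (by linarith) (by linarith)]
      refine le_trans (le_of_eq ?_) (Real.one_sub_inv_le_log_of_pos (by positivity))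
      field_simp
      ring
    have h2 : Real.log (a + 1) ≤ 2 * Real.log a := by
      rw [← Real.log_rpow (by linarith) 2, Real.rpow_two]
      exact Real.log_le_log (by linarith) (by nlinarith)
    rw [inv_sub_inv hla.ne' hlb.ne', inv_eq_one_div, mul_div_assoc',
      div_le_div_iff₀ (by positivity) (by positivity)]
    have h3 := mul_le_mul_of_nonneg_left h1
      (show 0 ≤ 2 * Real.log a ^ 2 * (a + 1) by positivity)
    rw [show 2 * Real.log a ^ 2 * (a + 1) * (1 / (a + 1)) = 2 * Real.log a ^ 2 by field_simp]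
      at h3
    have h4 := mul_le_mul_of_nonneg_left h2 hla.le
    linarith
  · rw [← mul_sum, Finset.sum_range_sub']
    refine mul_le_mul_of_nonneg_left (sub_le_self _ ?_) zero_le_two
    simp only [hφ]
    exact inv_nonneg.2 (Real.log_natCast_nonneg _)

variable (K : Type) [Field K] [NumberField K]

theorem normCount_lt_two {n : ℕ} (hn : n < 2) : normCount K n = 0 := by
  rw [normCount, card_eq_zero, filter_eq_empty_iff]
  intro v _ h
  have := FA.Ext.two_le_absNorm v
  omega

theorem piK_eq_sum_normCount (n : ℕ) :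
    FA.DedekindPIT.piK K n = ∑ m ∈ Icc 1 n, (normCount K m : ℝ) := by
  classical
  rw [FA.DedekindPIT.piK, Nat.floor_natCast, ← Nat.cast_sum]
  congr 1
  rw [card_eq_sum_card_fiberwise (t := Icc 1 n)
    (f := fun v : HeightOneSpectrum (𝓞 K) => Ideal.absNorm v.asIdeal) fun v hv => mem_Icc.2
      ⟨one_le_two.trans (FA.Ext.two_le_absNorm v), FA.Hecke.mem_primesLE.1 hv⟩]
  refine sum_congr rfl fun m hm => ?_
  rw [normCount, FA.DedekindPIT.primesLE_fiber K (mem_Icc.1 hm).2]

theorem normCount_le {n : ℕ} (hn : 2 ≤ n) :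
    (normCount K n : ℝ) ≤
      Module.finrank ℚ K * ArithmeticFunction.vonMangoldt n / Real.log 2 := by
  have hl := Real.log_pos one_lt_two
  obtain ⟨S, hS⟩ : ∃ S, S = (FA.Hecke.primesLE K n).filter
    fun v => Ideal.absNorm v.asIdeal = n := ⟨_, rfl⟩
  have hmem : ∀ v ∈ S, Ideal.absNorm v.asIdeal = n := fun v hv => by
    rw [hS] at hv
    exact (Finset.mem_filter.1 hv).2
  have h : ∑ v ∈ S, 1 * Real.log (Ideal.absNorm v.asIdeal) ≤
      Module.finrank ℚ K * ArithmeticFunction.vonMangoldt n :=
    (FA.Hecke.sum_le_fiberSum (w := fun _ => (1 : ℝ)) (B := 1) (fun _ => zero_le_one)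
      (fun _ => le_rfl) S hmem).trans (FA.DedekindPIT.mangoldtK_le K n)
  rw [sum_congr rfl fun v hv => show 1 * Real.log (Ideal.absNorm v.asIdeal) = Real.log n by
    rw [hmem v hv, one_mul], sum_const, nsmul_eq_mul] at h
  rw [le_div_iff₀ hl]
  refine le_trans ?_ h
  rw [show normCount K n = S.card by rw [hS]; rfl]
  exact mul_le_mul_of_nonneg_left (Real.log_le_log two_pos (by exact_mod_cast hn))
    (Nat.cast_nonneg _)

/-- **Mertens for a number field.** -/
theorem exists_tendsto_normCount_sum : ∃ C : ℝ, Tendsto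
    (fun n : ℕ => (∑ m ∈ Icc 1 n, (normCount K m : ℝ) / m) - Real.log (Real.log n))
      atTop (𝓝 C) := by
  obtain ⟨c, A, hc, hA, herr⟩ := FA.DedekindPIT.exists_fixed_field_error K
  obtain ⟨E, hE⟩ : ∃ E : ℕ → ℝ, E = fun n =>
      (∑ m ∈ Icc 1 n, (normCount K m : ℝ)) - ∫ t in (2 : ℝ)..n, 1 / Real.log t := ⟨_, rfl⟩
  obtain ⟨B, hB⟩ : ∃ B : ℝ, B = A * (24 / c ^ 4) := ⟨_, rfl⟩
  have hEb : ∀ n : ℕ, 2 ≤ n → |E n| ≤ B * n / Real.log n ^ 2 := fun n hn => by
    have hn2 : (2 : ℝ) ≤ n := by exact_mod_cast hn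
    have hl : 0 < Real.log n := Real.log_pos (by linarith)
    rw [hE]
    simp only
    rw [← piK_eq_sum_normCount]
    refine (herr n hn2).2.trans ?_
    have h := Real.pow_div_factorial_le_exp (c * √(Real.log n)) (by positivity) 4
    rw [mul_pow, show √(Real.log n) ^ 4 = (√(Real.log n) ^ 2) ^ 2 by ring, Real.sq_sqrt hl.le,
      show ((Nat.factorial 4 : ℕ) : ℝ) = 24 by norm_num [Nat.factorial]] at h
    rw [hB, Real.exp_neg]
    calc A * n * (Real.exp (c * √(Real.log n)))⁻¹ ≤ A * n * (c ^ 4 * Real.log n ^ 2 / 24)⁻¹ :=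
          mul_le_mul_of_nonneg_left (inv_anti₀ (by positivity) h) (by positivity)
      _ = _ := by field_simp
  obtain ⟨u, hu⟩ : ∃ u : ℕ → ℝ, u = fun n =>
      (∑ m ∈ Icc 1 (n + 2), (normCount K m : ℝ) / m) - Real.log (Real.log ((n + 2 : ℕ) : ℝ)) -
        E (n + 2) / ((n + 2 : ℕ) : ℝ) := ⟨_, rfl⟩
  have hstep : ∀ n, |u (n + 1) - u n| ≤
      B * ((((n + 3 : ℕ) : ℝ)) * Real.log ((n + 2 : ℕ) : ℝ) ^ 2)⁻¹ +
        1 / Real.log 2 * (1 / ((n + 2 : ℕ) : ℝ) ^ 2) := fun n => by
    obtain ⟨a, ha⟩ : ∃ a : ℝ, a = ((n + 2 : ℕ) : ℝ) := ⟨_, rfl⟩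
    have ha2 : 2 ≤ a := by rw [ha]; exact_mod_cast Nat.le_add_left 2 n
    have e : ((n + 3 : ℕ) : ℝ) = a + 1 := by rw [ha]; push_cast; ring
    have hmem : ∀ t ∈ Set.uIcc a (a + 1), a ≤ t := fun t ht => by
      rw [Set.uIcc_of_le (by linarith)] at ht
      exact ht.1
    have hi1 : ∀ x y : ℝ, 2 ≤ x → x ≤ y →
        IntervalIntegrable (fun t => 1 / Real.log t) MeasureTheory.volume x y := fun x y hx hy => by
      refine ContinuousOn.intervalIntegrable (continuousOn_const.div (Real.continuousOn_log.mono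
        fun t ht => ?_) fun t ht => ?_)
      · rw [Set.uIcc_of_le hy] at ht
        simp only [Set.mem_compl_iff, Set.mem_singleton_iff]
        linarith [ht.1]
      · rw [Set.uIcc_of_le hy] at ht
        exact (Real.log_pos (by linarith [ht.1])).ne'
    have hi2 : IntervalIntegrable (fun t => 1 / (t * Real.log t)) MeasureTheory.volume a (a + 1) :=
      ContinuousOn.intervalIntegrable (continuousOn_const.div (continuousOn_id.mul
        (Real.continuousOn_log.mono fun t ht => by
          have := hmem t ht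
          simp only [Set.mem_compl_iff, Set.mem_singleton_iff]
          linarith)) fun t ht => by
          have := hmem t ht
          exact mul_ne_zero (by linarith) (Real.log_pos (by linarith)).ne')
    have hll : Real.log (Real.log (a + 1)) - Real.log (Real.log a) =
        ∫ t in a..(a + 1), 1 / (t * Real.log t) := by
      refine (intervalIntegral.integral_eq_sub_of_hasDerivAt
        (f := fun t => Real.log (Real.log t)) (fun t ht => ?_) hi2).symm
      have := hmem t ht
      refine ((Real.hasDerivAt_log (by linarith)).log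
        (Real.log_pos (by linarith)).ne').congr_deriv ?_
      field_simp
    have hjump : E (n + 3) - E (n + 2) =
        (normCount K (n + 3) : ℝ) - ∫ t in a..(a + 1), 1 / Real.log t := by
      rw [hE]
      simp only
      rw [show n + 3 = n + 2 + 1 by rfl, sum_Icc_succ_top (by omega : 1 ≤ n + 2 + 1)]
      have h := intervalIntegral.integral_add_adjacent_intervals (hi1 2 a le_rfl ha2)
        (hi1 a (a + 1) ha2 (by linarith))
      rw [show ((n + 2 + 1 : ℕ) : ℝ) = a + 1 from e, ← ha, ← h]
      ring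
    have key : u (n + 1) - u n = E (n + 2) * (1 / a - 1 / (a + 1)) +
        ∫ t in a..(a + 1), (1 / (a + 1) * (1 / Real.log t) - 1 / (t * Real.log t)) := by
      rw [hu]
      simp only
      rw [show n + 1 + 2 = n + 2 + 1 by omega, sum_Icc_succ_top (by omega : 1 ≤ n + 2 + 1),
        show ((n + 2 + 1 : ℕ) : ℝ) = a + 1 from e, ← ha,
        intervalIntegral.integral_sub ((hi1 a (a + 1) ha2 (by linarith)).const_mul _) hi2,
        intervalIntegral.integral_const_mul, ← hll,
        show ∫ t in a..(a + 1), 1 / Real.log t =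
          (normCount K (n + 3) : ℝ) - (E (n + 3) - E (n + 2)) by rw [hjump]; ring,
        show n + 2 + 1 = n + 3 by rfl]
      ring
    rw [key, e, ← ha]
    refine (abs_add_le _ _).trans (add_le_add ?_ ?_)
    · rw [abs_mul, div_sub_div _ _ (by linarith : a ≠ 0) (by linarith : a + 1 ≠ 0),
        abs_of_nonneg (show 0 ≤ (1 * (a + 1) - a * 1) / (a * (a + 1)) by
          rw [show 1 * (a + 1) - a * 1 = 1 by ring]; positivity)]
      refine (mul_le_mul_of_nonneg_right (hEb (n + 2) (by omega)) ?_).trans (le_of_eq ?_)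
      · rw [show 1 * (a + 1) - a * 1 = 1 by ring]
        positivity
      · rw [← ha, show 1 * (a + 1) - a * 1 = 1 by ring]
        field_simp
    · refine le_trans (le_of_eq (Real.norm_eq_abs _).symm)
        ((intervalIntegral.norm_integral_le_of_norm_le_const fun t ht => ?_).trans
          (le_of_eq (by rw [add_sub_cancel_left, abs_one, mul_one])))
      rw [Set.uIoc_of_le (by linarith)] at ht
      obtain ⟨ht1, ht2⟩ := ht
      have hlt : Real.log 2 ≤ Real.log t := Real.log_le_log two_pos (by linarith)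
      have hl2 := Real.log_pos one_lt_two
      have hl0 : 0 < Real.log t := by linarith
      rw [Real.norm_eq_abs, show 1 / (a + 1) * (1 / Real.log t) - 1 / (t * Real.log t) =
        -((a + 1 - t) / ((a + 1) * t) * (1 / Real.log t)) by
          have : t ≠ 0 := by linarith
          field_simp
          ring, abs_neg, abs_of_nonneg (mul_nonneg (div_nonneg (by linarith)
            (mul_nonneg (by linarith) (by linarith))) (by positivity)), mul_comm (1 / Real.log 2)]
      refine mul_le_mul ?_ (one_div_le_one_div_of_le hl2 hlt) (by positivity) (by positivity)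
      rw [sq]
      exact div_le_div₀ zero_le_one (by linarith) (mul_pos (by linarith) (by linarith))
        (mul_le_mul (by linarith) ht1.le (by linarith) (by linarith))
  have hsum : Summable fun n => u (n + 1) - u n := by
    refine Summable.of_norm_bounded ((summable_inv_mul_log_sq.mul_left B).add
      (((summable_nat_add_iff 2).2 (Real.summable_one_div_nat_pow.2 one_lt_two)).mul_left
        (1 / Real.log 2))) fun n => ?_
    exact le_of_eq_of_le (Real.norm_eq_abs _) (hstep n)
  have hlim := hsum.hasSum.tendsto_sum_nat.add_const (u 0)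
  simp only [Finset.sum_range_sub u, sub_add_cancel] at hlim
  obtain ⟨S, hS⟩ : ∃ S, Tendsto u atTop (𝓝 S) := ⟨_, hlim⟩
  have hE0 : Tendsto (fun n : ℕ => E n / n) atTop (𝓝 0) := by
    refine squeeze_zero_norm' ((eventually_ge_atTop 2).mono fun n hn => ?_)
      ((tendsto_const_nhds (x := B)).div_atTop ((tendsto_pow_atTop two_ne_zero).comp
        (Real.tendsto_log_atTop.comp tendsto_natCast_atTop_atTop)))
    have hn0 : (0 : ℝ) < n := Nat.cast_pos.2 (by omega)
    rw [Real.norm_eq_abs, abs_div, Nat.abs_cast, div_le_iff₀ hn0]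
    refine (hEb n hn).trans (le_of_eq ?_)
    simp only [Function.comp_apply]
    ring
  refine ⟨S + 0, (tendsto_add_atTop_iff_nat 2).1 ?_⟩
  refine (hS.add ((tendsto_add_atTop_iff_nat 2).2 hE0)).congr fun n => ?_
  rw [hu]
  ring

/-- `∑_{p ≤ n} ρ (p) / p`. -/
def rootSumUpTo (f : ℤ[X]) (n : ℕ) : ℝ :=
  ∑ p ∈ (Icc 1 n).filter Nat.Prime, (rootMod f p : ℝ) / p

/-- **Mertens for the roots of an irreducible polynomial.** -/
theorem exists_tendsto_rootSum {f : ℤ[X]} (hirr : Irreducible f) (hd : 0 < f.natDegree) :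
    ∃ C : ℝ, Tendsto (fun n : ℕ => rootSumUpTo f n - Real.log (Real.log n)) atTop (𝓝 C) := by
  obtain ⟨K, iF, iN, N, hN⟩ := exists_field_of_irreducible hirr hd
  obtain ⟨C, hC⟩ := exists_tendsto_normCount_sum K
  obtain ⟨e, he⟩ : ∃ e : ℕ → ℝ, e = fun m => (normCount K m : ℝ) / m -
      if m.Prime then (rootMod f m : ℝ) / m else 0 := ⟨_, rfl⟩
  have hsum : Summable e := by
    refine Summable.of_norm_bounded_eventually_nat
      ((ArithmeticFunction.vonMangoldt.summable_residueClass_non_primes_div
        (a := (0 : ZMod 1))).mul_left ((Module.finrank ℚ K : ℝ) / Real.log 2))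
      ((eventually_gt_atTop (max N 1)).mono fun m hm => ?_)
    rw [he, Real.norm_eq_abs]
    simp only
    by_cases hp : m.Prime
    · rw [if_pos hp, if_pos hp, hN m hp (lt_of_le_of_lt (le_max_left _ _) hm), sub_self, abs_zero,
        zero_div, mul_zero]
    · rw [if_neg hp, if_neg hp, sub_zero, abs_of_nonneg (by positivity),
        ArithmeticFunction.vonMangoldt.residueClass,
        Set.indicator_of_mem (show m ∈ {n : ℕ | (n : ZMod 1) = 0} from Subsingleton.elim _ _)]
      refine (div_le_div_of_nonneg_right (normCount_le K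
        (show 2 ≤ m by have := le_max_right N 1; omega)) (Nat.cast_nonneg m)).trans (le_of_eq ?_)
      ring
  have hlim := (tendsto_add_atTop_iff_nat 1).2 hsum.hasSum.tendsto_sum_nat
  refine ⟨C - ∑' m, e m, (hC.sub hlim).congr fun n => ?_⟩
  have he0 : e 0 = 0 := by simp [he, normCount_lt_two K two_pos, Nat.not_prime_zero]
  rw [show ∑ i ∈ range (n + 1), e i = ∑ i ∈ Icc 1 n, e i by
    rw [Nat.range_succ_eq_Icc_zero, ← insert_Icc_add_one_left_eq_Icc (Nat.zero_le n),
      sum_insert (by simp), he0, zero_add, zero_add]]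
  rw [he, rootSumUpTo, sum_filter, sum_sub_distrib]
  ring

end FA.RichertValues

end
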