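import Fermat.Agent.RichertValues.Dimension
import Fermat.Agent.LinearSieve.Sieve

/-!
# The sieve of the values of a polynomial

The `|f n|`, `n < x`, that are multiples of `q`, sifted by the primes `< Z` with a root: the
remainder at `d` is at most `ρ (q d)`.
-/

set_option autoImplicit false

noncomputable section

open Polynomial Finset
open scoped Polynomial
open FA.CombinatorialSieve (remSum sieveProduct)

namespace FA.RichertValues

/-- `|f n|`. -/
def value (f : ℤ[X]) (n : ℕ) : ℕ := (f.eval (n : ℤ)).natAbs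

theorem dvd_value_iff (f : ℤ[X]) (d n : ℕ) : d ∣ value f n ↔ (d : ℤ) ∣ f.eval (n : ℤ) :=
  Int.natCast_dvd.symm

theorem periodic_dvd_value (f : ℤ[X]) (d : ℕ) : Function.Periodic (fun n => d ∣ value f n) d :=
  fun n => propext <| by
    simp only [dvd_value_iff]
    refine dvd_iff_dvd_of_dvd_sub ((?_ : (d : ℤ) ∣ _).trans (sub_dvd_eval_sub _ _ f))
    push_cast
    simp

theorem rootMod_eq_count (f : ℤ[X]) (d : ℕ) :
    rootMod f d = Nat.count (fun n => d ∣ value f n) d := by
  rw [Nat.count_eq_card_filter_range, rootMod]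
  exact congrArg card (filter_congr fun n _ => (dvd_value_iff f d n).symm)

/-- The multiples of `d` among the values. -/
theorem abs_card_dvd_value_sub_le (f : ℤ[X]) {d : ℕ} (hd : 0 < d) (x : ℕ) :
    |((((range x).filter fun n => d ∣ value f n).card : ℕ) : ℝ) -
      (x : ℝ) * ((rootMod f d : ℝ) / d)| ≤ rootMod f d := by
  obtain ⟨c, hc⟩ : ∃ c, c = rootMod f d := ⟨_, rfl⟩
  rw [← Nat.count_eq_card_filter_range, ← hc]
  have hq : ∀ k, Nat.count (fun n => d ∣ value f n) (k * d) = k * c := by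
    intro k
    induction k with
    | zero => simp
    | succ k ih =>
      rw [Nat.succ_mul, Nat.count_add, ih, Nat.succ_mul, hc, rootMod_eq_count]
      congr 1
      rw [Nat.count_eq_card_filter_range, Nat.count_eq_card_filter_range]
      refine congrArg card (filter_congr fun n _ => ?_)
      rw [add_comm (k * d) n]
      exact iff_of_eq ((periodic_dvd_value f d).nat_mul k n)
  have h1 : x / d * c ≤ Nat.count (fun n => d ∣ value f n) x :=
    hq _ ▸ Nat.count_monotone _ (Nat.div_mul_le_self x d)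
  have h2 : Nat.count (fun n => d ∣ value f n) x ≤ (x / d + 1) * c :=
    hq _ ▸ Nat.count_monotone _ (by rw [Nat.succ_mul]; exact (Nat.lt_div_mul_add hd).le)
  have h1' : ((x / d : ℕ) : ℝ) * c ≤ (Nat.count (fun n => d ∣ value f n) x : ℝ) := by
    exact_mod_cast h1
  have h2' : (Nat.count (fun n => d ∣ value f n) x : ℝ) ≤ (((x / d : ℕ) : ℝ) + 1) * c := by
    exact_mod_cast h2
  have hd' : (0 : ℝ) < d := Nat.cast_pos.2 hd
  have h3 : ((x / d : ℕ) : ℝ) * c ≤ (x : ℝ) * ((c : ℝ) / d) := by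
    rw [mul_div_assoc', le_div_iff₀ hd']
    have : ((x / d * d : ℕ) : ℝ) ≤ x := Nat.cast_le.2 (Nat.div_mul_le_self x d)
    push_cast at this
    nlinarith [(Nat.cast_nonneg c : (0 : ℝ) ≤ c)]
  have h4 : (x : ℝ) * ((c : ℝ) / d) ≤ (((x / d : ℕ) : ℝ) + 1) * c := by
    rw [mul_div_assoc', div_le_iff₀ hd']
    have : (x : ℝ) ≤ ((x / d * d + d : ℕ) : ℝ) := Nat.cast_le.2 (Nat.lt_div_mul_add hd).le
    push_cast at this
    nlinarith [(Nat.cast_nonneg c : (0 : ℝ) ≤ c)]
  rw [abs_le]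
  constructor <;> linarith

/-- The primes `< Z` with a root. -/
def rootPrimes (f : ℤ[X]) (Z : ℝ) : Finset ℕ :=
  (range ⌈Z⌉₊).filter fun p => p.Prime ∧ 0 < rootMod f p

/-- Their product. -/
def rootProd (f : ℤ[X]) (Z : ℝ) : ℕ := ∏ p ∈ rootPrimes f Z, p

theorem mem_rootPrimes {f : ℤ[X]} {Z : ℝ} {p : ℕ} :
    p ∈ rootPrimes f Z ↔ p.Prime ∧ (p : ℝ) < Z ∧ 0 < rootMod f p := by
  rw [rootPrimes, mem_filter, mem_range, Nat.lt_ceil]
  tauto

theorem squarefree_rootProd (f : ℤ[X]) (Z : ℝ) : Squarefree (rootProd f Z) :=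
  squarefree_prod_of_pairwise_isCoprime (fun _ hp _ hp' h => Nat.coprime_iff_isRelPrime.1
    ((Nat.coprime_primes (mem_rootPrimes.1 hp).1 (mem_rootPrimes.1 hp').1).2 h))
    fun _ hp => (mem_rootPrimes.1 hp).1.squarefree

theorem primeFactors_rootProd (f : ℤ[X]) (Z : ℝ) :
    (rootProd f Z).primeFactors = rootPrimes f Z :=
  Nat.primeFactors_prod fun _ hp => (mem_rootPrimes.1 hp).1

theorem prime_dvd_rootProd_iff {f : ℤ[X]} {Z : ℝ} {p : ℕ} (hp : p.Prime) :
    p ∣ rootProd f Z ↔ (p : ℝ) < Z ∧ 0 < rootMod f p := by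
  have h : p ∈ (rootProd f Z).primeFactors ↔ p ∣ rootProd f Z :=
    ⟨Nat.dvd_of_mem_primeFactors,
      fun h => Nat.mem_primeFactors.2 ⟨hp, h, (squarefree_rootProd f Z).ne_zero⟩⟩
  rw [← h, primeFactors_rootProd, mem_rootPrimes]
  tauto

theorem rootPrimes_mono {f : ℤ[X]} {Z Y : ℝ} (h : Z ≤ Y) : rootPrimes f Z ⊆ rootPrimes f Y :=
  fun _ hp => mem_rootPrimes.2
    ⟨(mem_rootPrimes.1 hp).1, (mem_rootPrimes.1 hp).2.1.trans_le h, (mem_rootPrimes.1 hp).2.2⟩

/-- The sieve. -/
def valueSieve (f : ℤ[X]) (hf : NoFixedPrime f) (x q : ℕ) (Z : ℝ) : BoundingSieve where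
  support := ((range x).filter fun n => q ∣ value f n).image (value f)
  prodPrimes := rootProd f Z
  prodPrimes_squarefree := squarefree_rootProd f Z
  weights m := (((range x).filter fun n => q ∣ value f n ∧ value f n = m).card : ℝ)
  weights_nonneg _ := Nat.cast_nonneg _
  totalMass := (x : ℝ) * rootDensity f q
  nu := rootDensity f
  nu_mult := isMultiplicative_rootDensity f
  nu_pos_of_prime _ hp hpd := (rootDensity_pos_iff hp).2 ((prime_dvd_rootProd_iff hp).1 hpd).2
  nu_lt_one_of_prime _ hp _ := rootDensity_lt_one hf hp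

theorem sum_valueSieve (f : ℤ[X]) (hf : NoFixedPrime f) (x q : ℕ) (Z : ℝ) (P : ℕ → Prop)
    [DecidablePred P] :
    (∑ m ∈ (valueSieve f hf x q Z).support,
        if P m then (valueSieve f hf x q Z).weights m else 0) =
      (((range x).filter fun n => q ∣ value f n ∧ P (value f n)).card : ℝ) := by
  show (∑ m ∈ ((range x).filter fun n => q ∣ value f n).image (value f), if P m then
    (((range x).filter fun n => q ∣ value f n ∧ value f n = m).card : ℝ) else 0) = _
  rw [← sum_filter, ← Nat.cast_sum, Nat.cast_inj,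
    card_eq_sum_card_fiberwise (f := value f)
      (t := (((range x).filter fun n => q ∣ value f n).image (value f)).filter P) fun n hn => by
        rw [Finset.mem_coe, mem_filter] at hn
        exact mem_coe.2 (mem_filter.2
          ⟨mem_image.2 ⟨n, mem_filter.2 ⟨hn.1, hn.2.1⟩, rfl⟩, hn.2.2⟩)]
  refine sum_congr rfl fun m hm => congrArg card ?_
  rw [filter_filter]
  refine filter_congr fun n _ => ⟨fun h => ⟨⟨h.1, ?_⟩, h.2⟩, fun h => ⟨h.1.1, h.2⟩⟩
  rw [h.2]
  exact (mem_filter.1 hm).2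

theorem valueSieve_siftedSum (f : ℤ[X]) (hf : NoFixedPrime f) (x q : ℕ) (Z : ℝ) :
    (valueSieve f hf x q Z).siftedSum = (((range x).filter fun n =>
      q ∣ value f n ∧ (rootProd f Z).Coprime (value f n)).card : ℝ) :=
  sum_valueSieve f hf x q Z fun m => (rootProd f Z).Coprime m

theorem abs_valueSieve_rem_le (f : ℤ[X]) (hf : NoFixedPrime f) (x : ℕ) {q d : ℕ} (Z : ℝ)
    (hq : 0 < q) (hd : 0 < d) (hcop : q.Coprime d) :
    |(valueSieve f hf x q Z).rem d| ≤ rootMod f (q * d) := by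
  rw [BoundingSieve.rem, BoundingSieve.multSum, sum_valueSieve f hf x q Z fun m => d ∣ m,
    filter_congr fun n _ => show q ∣ value f n ∧ d ∣ value f n ↔ q * d ∣ value f n from
      ⟨fun h => hcop.mul_dvd_of_dvd_of_dvd h.1 h.2,
        fun h => ⟨(dvd_mul_right q d).trans h, (dvd_mul_left d q).trans h⟩⟩,
    show (valueSieve f hf x q Z).nu d * (valueSieve f hf x q Z).totalMass =
      rootDensity f d * ((x : ℝ) * rootDensity f q) from rfl,
    show rootDensity f d * ((x : ℝ) * rootDensity f q) =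
      (x : ℝ) * (rootDensity f q * rootDensity f d) by ring,
    ← (isMultiplicative_rootDensity f).map_mul_of_coprime hcop,
    rootDensity_apply f (Nat.mul_pos hq hd).ne']
  exact abs_card_dvd_value_sub_le f (Nat.mul_pos hq hd) x

theorem coprime_of_lt {f : ℤ[X]} {q d : ℕ} {Z : ℝ} (hq : q.Prime) (hZ : Z ≤ q)
    (hd : d ∣ rootProd f Z) : q.Coprime d :=
  hq.coprime_iff_not_dvd.2 fun h =>
    not_lt.2 hZ ((prime_dvd_rootProd_iff hq).1 (h.trans hd)).1

/-- **All the remainders of one sieve.** -/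
theorem remSum_valueSieve_le (f : ℤ[X]) (hf : NoFixedPrime f) (x : ℕ) {q : ℕ} {Z E : ℝ}
    {K η : ℝ} (hη : 0 ≤ η) (hK : 0 ≤ K) (hKd : ∀ d : ℕ, Squarefree d → (rootMod f d : ℝ) ≤
      K * (d : ℝ) ^ η) (hq : 0 < q) (hcop : ∀ d, d ∣ rootProd f Z → q.Coprime d) (hE : 0 ≤ E) :
    remSum (valueSieve f hf x q Z) E ≤ rootMod f q * (K * ((E + 1) * E ^ η)) := by
  rw [remSum]
  refine (sum_le_card_nsmul _ _ ((rootMod f q : ℝ) * (K * E ^ η)) fun d hd => ?_).trans ?_
  · obtain ⟨hd1, hdE⟩ := mem_filter.1 hd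
    have hdP : d ∣ rootProd f Z := Nat.dvd_of_mem_divisors hd1
    have hd0 : 0 < d := Nat.pos_of_mem_divisors hd1
    refine (abs_valueSieve_rem_le f hf x Z hq hd0 (hcop d hdP)).trans ?_
    rw [rootMod_mul f (hcop d hdP) hq hd0, Nat.cast_mul]
    refine mul_le_mul_of_nonneg_left
      ((hKd d ((squarefree_rootProd f Z).squarefree_of_dvd hdP)).trans
      (mul_le_mul_of_nonneg_left (Real.rpow_le_rpow (Nat.cast_nonneg d) hdE.le hη) hK))
        (Nat.cast_nonneg _)
  · rw [nsmul_eq_mul]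
    refine le_of_le_of_eq (mul_le_mul_of_nonneg_right (?_ : _ ≤ E + 1) (by positivity)) (by ring)
    refine le_trans (Nat.cast_le.2 (card_le_card (t := range ⌈E⌉₊) fun d hd => ?_)) ?_
    · exact mem_range.2 (Nat.lt_ceil.2 (mem_filter.1 hd).2)
    · rw [card_range]
      exact (Nat.ceil_lt_add_one hE).le

end FA.RichertValues

end
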