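import Fermat.Agent.RichertValues.Weighted
import Mathlib.Analysis.Polynomial.Basic
import Mathlib.FieldTheory.Perfect

/-!
# Richert's theorem on almost-prime values

An irreducible polynomial of degree `g` without a fixed prime divisor has at most `g + 1` prime
factors, counted with multiplicity, at `≫ x / log x` of the `n < x`.
-/

set_option autoImplicit false

noncomputable section

open Polynomial Finset Filter
open scoped Polynomial ArithmeticFunction.Omega

namespace FA.RichertValues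

variable {f : ℤ[X]}

theorem pos_rootMod_of_dvd_value {p n : ℕ} (hp : p.Prime) (h : p ∣ value f n) :
    0 < rootMod f p := by
  rw [rootMod_eq_count]
  refine Nat.pos_of_ne_zero fun h0 => ?_
  rw [Nat.count_eq_card_filter_range, card_eq_zero, filter_eq_empty_iff] at h0
  refine h0 (mem_range.2 (Nat.mod_lt n hp.pos)) ?_
  exact (iff_of_eq ((periodic_dvd_value f p).map_mod_nat n)).2 h

theorem rootMod_sq_eq (f : ℤ[X]) (p : ℕ) :
    rootMod f (p ^ 2) = SquarefreeValues.rootCount f p := by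
  rw [rootMod, SquarefreeValues.rootCount]
  push_cast
  rfl

/-- The `n < x` with the square of a middle prime dividing the value. -/
def squareArgs (f : ℤ[X]) (x : ℕ) (z y : ℝ) : Finset ℕ :=
  (range x).filter fun n => ∃ q ∈ weightPrimes f z y, q ^ 2 ∣ value f n

theorem card_squareArgs_le {R : ℕ}
    (hR : ∀ p : ℕ, p.Prime → SquarefreeValues.rootCount f p ≤ R) (x : ℕ) {z y D : ℝ}
    (hz : 2 ≤ z) (hyD : y ≤ D) (hD : 0 ≤ D) :
    ((squareArgs f x z y).card : ℝ) ≤ R * (x * (2 / z) + D + x * (2 / z) + 1) := by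
  have hsub : squareArgs f x z y ⊆ (weightPrimes f z y).biUnion
      fun q => (range x).filter fun n => q ^ 2 ∣ value f n := fun n hn => by
    obtain ⟨hn1, q, hq, hqn⟩ := mem_filter.1 hn
    exact mem_biUnion.2 ⟨q, hq, mem_filter.2 ⟨hn1, hqn⟩⟩
  refine (Nat.cast_le.2 ((card_le_card hsub).trans card_biUnion_le)).trans ?_
  rw [Nat.cast_sum]
  have hone : ∀ q ∈ weightPrimes f z y,
      ((((range x).filter fun n => q ^ 2 ∣ value f n).card : ℕ) : ℝ) ≤
        R * ((x : ℝ) * ((q : ℝ) ^ 2)⁻¹ + 1) := fun q hq => by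
    have hp := (mem_rootPrimes.1 (mem_filter.1 hq).1).1
    have h := (abs_le.1 (abs_card_dvd_value_sub_le f (pow_pos hp.pos 2) x)).2
    have hρ : (rootMod f (q ^ 2) : ℝ) ≤ R := rootMod_sq_eq f q ▸ Nat.cast_le.2 (hR q hp)
    have h2 : (x : ℝ) * ((rootMod f (q ^ 2) : ℝ) / ((q ^ 2 : ℕ) : ℝ)) ≤
        (x : ℝ) * ((R : ℝ) / ((q ^ 2 : ℕ) : ℝ)) := by gcongr
    push_cast at h h2 ⊢
    have h3 : (x : ℝ) * ((R : ℝ) / (q : ℝ) ^ 2) = R * ((x : ℝ) * ((q : ℝ) ^ 2)⁻¹) := by ring
    linarith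
  refine (sum_le_sum hone).trans ?_
  rw [← mul_sum, sum_add_distrib, ← mul_sum, sum_const, nsmul_eq_mul, mul_one]
  refine mul_le_mul_of_nonneg_left ?_ (Nat.cast_nonneg R)
  have hc : 2 ≤ ⌈z⌉₊ := by
    have : (2 : ℝ) ≤ ⌈z⌉₊ := hz.trans (Nat.le_ceil z)
    exact_mod_cast this
  have h1 := LinearSieve.sum_inv_sq_ge_le (T := weightPrimes f z y) hc
    fun q hq => Nat.ceil_le.2 (mem_filter.1 hq).2
  have h2 : 2 / ((⌈z⌉₊ : ℕ) : ℝ) ≤ 2 / z :=
    div_le_div_of_nonneg_left zero_le_two (by linarith) (Nat.le_ceil z)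
  have h3 := mul_le_mul_of_nonneg_left (h1.trans h2) (Nat.cast_nonneg x : (0 : ℝ) ≤ x)
  have h4 : ((weightPrimes f z y).card : ℝ) ≤ D + 1 := by
    refine (Nat.cast_le.2 (card_le_card (t := range (⌊D⌋₊ + 1)) fun q hq => ?_)).trans ?_
    · exact mem_range.2 (Nat.lt_succ_of_le (Nat.le_floor
        ((mem_rootPrimes.1 (mem_filter.1 hq).1).2.1.le.trans hyD)))
    · rw [card_range]
      push_cast
      linarith [Nat.floor_le hD]
  have h5 : 0 ≤ (x : ℝ) * (2 / z) := by positivity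
  linarith

/-- **The number of factors, from the weight.** -/
theorem cardFactors_lt_of_weight {n : ℕ} {z y : ℝ} (hy : 1 < y)
    (hm : value f n ≠ 0) (hcop : (rootProd f z).Coprime (value f n))
    (hsq : ∀ q ∈ weightPrimes f z y, ¬ q ^ 2 ∣ value f n)
    (hW : 0 < richertWeight f z y n) :
    (Ω (value f n) : ℝ) < Real.log (value f n) / Real.log y + 3 / 2 := by
  obtain ⟨m, hmd⟩ : ∃ m, m = value f n := ⟨_, rfl⟩
  rw [← hmd] at hm hcop hsq ⊢
  have hly := Real.log_pos hy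
  have hbig : ∀ p : ℕ, p.Prime → p ∣ m → z ≤ p := fun p hp hpm => not_lt.1 fun hlt => by
    have h1 := (prime_dvd_rootProd_iff hp).2 ⟨hlt, pos_rootMod_of_dvd_value hp (hmd ▸ hpm)⟩
    exact hp.one_lt.ne' (Nat.dvd_one.1 (hcop ▸ Nat.dvd_gcd h1 hpm))
  have e : (Ω m : ℝ) - Real.log m / Real.log y =
      ∑ p ∈ m.primeFactors, (m.factorization p : ℝ) * logWeight y p := by
    rw [ArithmeticFunction.cardFactors_eq_sum_factorization, Real.log_nat_eq_sum_factorization,
      Finsupp.sum, Finsupp.sum, Nat.support_factorization, Nat.cast_sum, sum_div, ← sum_sub_distrib]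
    refine sum_congr rfl fun p _ => ?_
    rw [logWeight]
    ring
  have hle : (Ω m : ℝ) - Real.log m / Real.log y ≤
      ∑ q ∈ (weightPrimes f z y).filter (fun q => q ∣ m), logWeight y q := by
    rw [e]
    refine le_trans (le_trans ?_ (le_of_eq (sum_filter _ _).symm))
      (sum_le_sum_of_subset_of_nonneg (s := m.primeFactors.filter fun p : ℕ => (p : ℝ) < y)
        (fun p hp => ?_) fun q hq _ => (logWeight_mem hy (mem_filter.1 hq).1).1)
    · refine sum_le_sum fun p hp => ?_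
      obtain ⟨hpp, hpm, -⟩ := Nat.mem_primeFactors.1 hp
      by_cases hpy : (p : ℝ) < y
      · rw [if_pos hpy]
        have hq : p ∈ weightPrimes f z y := mem_filter.2
          ⟨mem_rootPrimes.2 ⟨hpp, hpy, pos_rootMod_of_dvd_value hpp (hmd ▸ hpm)⟩, hbig p hpp hpm⟩
        have h1 : m.factorization p = 1 := by
          refine le_antisymm (not_lt.1 fun h2 => hsq p hq ?_) ?_
          · exact (hpp.pow_dvd_iff_le_factorization hm).2 h2
          · exact hpp.factorization_pos_of_dvd hm hpm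
        rw [h1, Nat.cast_one, one_mul]
      · rw [if_neg hpy]
        refine mul_nonpos_of_nonneg_of_nonpos (Nat.cast_nonneg _) (sub_nonpos.2 ?_)
        rw [one_le_div hly]
        exact Real.log_le_log (by linarith) (not_lt.1 hpy)
    · obtain ⟨hp1, hpy⟩ := mem_filter.1 hp
      obtain ⟨hpp, hpm, -⟩ := Nat.mem_primeFactors.1 hp1
      exact mem_filter.2 ⟨mem_filter.2
        ⟨mem_rootPrimes.2 ⟨hpp, hpy, pos_rootMod_of_dvd_value hpp (hmd ▸ hpm)⟩, hbig p hpp hpm⟩,
          hpm⟩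
  rw [richertWeight, ← hmd] at hW
  linarith

theorem abs_eval_le (f : ℤ[X]) {n x : ℕ} (hn : n ≤ x) (hx : 1 ≤ x) :
    (value f n : ℝ) ≤ (∑ i ∈ range (f.natDegree + 1), |(f.coeff i : ℝ)|) *
      (x : ℝ) ^ f.natDegree := by
  rw [value, Nat.cast_natAbs, Int.cast_abs, eval_eq_sum_range, Int.cast_sum, sum_mul]
  refine (abs_sum_le_sum_abs _ _).trans (sum_le_sum fun i hi => ?_)
  push_cast
  rw [abs_mul, abs_of_nonneg (show (0 : ℝ) ≤ (n : ℝ) ^ i by positivity)]
  exact mul_le_mul_of_nonneg_left ((pow_le_pow_left₀ (Nat.cast_nonneg n) (Nat.cast_le.2 hn) i).trans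
    (pow_le_pow_right₀ (Nat.one_le_cast.2 hx) (Nat.lt_succ_iff.1 (mem_range.1 hi)))) (abs_nonneg _)

theorem eventually_two_le_eval (hd : 0 < f.natDegree) (hlead : 0 < f.leadingCoeff) :
    ∀ᶠ n : ℕ in atTop, 2 ≤ f.eval (n : ℤ) := by
  have h := (Polynomial.tendsto_atTop_of_leadingCoeff_nonneg (f.map (Int.castRingHom ℝ))
    (by rw [degree_map_eq_of_injective Int.cast_injective]
        exact natDegree_pos_iff_degree_pos.1 hd)
    (by rw [leadingCoeff_map_of_injective Int.cast_injective, eq_intCast]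
        exact Int.cast_nonneg hlead.le)).comp (tendsto_natCast_atTop_atTop (R := ℝ))
  refine (h.eventually_ge_atTop 2).mono fun n hn => ?_
  simp only [Function.comp_apply] at hn
  rw [← Int.cast_natCast (R := ℝ) n, ← eq_intCast (Int.castRingHom ℝ) (n : ℤ), eval_map,
    eval₂_hom, eq_intCast] at hn
  exact_mod_cast hn

theorem margin_le {G κ : ℝ} (hG : 1 ≤ G) (hκ : κ = 1 / (32 * G)) :
    (G + κ) / ((1 - 1 / (4 * G)) * (1 - κ)) ≤ G + 1 / 2 := by
  have h1 : 1 / (4 * G) ≤ 1 / 4 := by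
    rw [div_le_div_iff₀ (by positivity) (by norm_num)]
    linarith
  have h2 : κ ≤ 1 / 32 := by
    rw [hκ, div_le_div_iff₀ (by positivity) (by norm_num)]
    linarith
  rw [div_le_iff₀ (mul_pos (by linarith) (by linarith)), hκ]
  refine sub_nonneg.1 ?_
  rw [show (G + 1 / 2) * ((1 - 1 / (4 * G)) * (1 - 1 / (32 * G))) - (G + 1 / (32 * G)) =
    (56 * G ^ 2 - 42 * G + 1) / (256 * G ^ 2) - 0 by field_simp; ring]
  rw [sub_zero]
  exact div_nonneg (by nlinarith) (by positivity)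

set_option maxHeartbeats 800000 in
/-- **Richert's theorem.** -/
theorem exists_richert (hirr : Irreducible f) (hd : 0 < f.natDegree) (hlead : 0 < f.leadingCoeff)
    (hf : NoFixedPrime f) : ∃ c : ℝ, 0 < c ∧ ∀ᶠ x : ℕ in atTop, c * x / Real.log x ≤
      (((range x).filter fun n : ℕ => 1 < f.eval (n : ℤ) ∧ Ω (value f n) ≤ f.natDegree + 1 ∧
        ∀ p ∈ (value f n).primeFactors, x ≤ p ^ 5).card : ℝ) := by
  obtain ⟨G, hG⟩ : ∃ G : ℝ, G = f.natDegree := ⟨_, rfl⟩
  have hG1 : 1 ≤ G := hG ▸ Nat.one_le_cast.2 hd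
  obtain ⟨κ, hκ⟩ : ∃ κ : ℝ, κ = 1 / (32 * G) := ⟨_, rfl⟩
  obtain ⟨u, hu⟩ : ∃ u : ℝ, u = 1 - 1 / (4 * G) := ⟨_, rfl⟩
  have hκ0 : 0 < κ := hκ ▸ by positivity
  have hκ1 : κ ≤ 1 / 32 := by
    rw [hκ, div_le_div_iff₀ (by positivity) (by norm_num)]
    linarith
  have hu0 : 3 / 4 ≤ u := by
    have : 1 / (4 * G) ≤ 1 / 4 := by
      rw [div_le_div_iff₀ (by positivity) (by norm_num)]
      linarith
    linarith
  have hu1 : u < 1 := by
    have : 0 < 1 / (4 * G) := by positivity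
    linarith
  obtain ⟨c, hc, hweight⟩ :=
    exists_weighted_ge hirr hd hf hκ0 (by linarith) (show 1 / 4 < u by linarith) hu1
  have hsep : (f.map (Int.castRingHom ℚ)).Separable :=
    ((Polynomial.IsPrimitive.Int.irreducible_iff_irreducible_map_cast
      (hirr.isPrimitive hd.ne')).1 hirr).separable
  obtain ⟨R, hR⟩ := SquarefreeValues.exists_rootCount_bound hsep
  obtain ⟨n₀, hn₀⟩ := eventually_atTop.1 (eventually_two_le_eval hd hlead)
  obtain ⟨H, hH⟩ : ∃ H : ℝ, H = ∑ i ∈ range (f.natDegree + 1), |(f.coeff i : ℝ)| := ⟨_, rfl⟩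
  obtain ⟨M, hM⟩ : ∃ M : ℝ, M = (R : ℝ) * 6 + n₀ + 1 := ⟨_, rfl⟩
  refine ⟨c / 3, by positivity, ?_⟩
  filter_upwards [hweight, eventually_ge_atTop (1024 : ℕ),
    BombieriVinogradov.eventually_log_ge (max 1 (Real.log (H + 1) / κ)),
    BombieriVinogradov.eventually_log_ge (3 * M / c),
    BombieriVinogradov.eventually_log_pow_le 2 (show (0 : ℝ) < κ by linarith)]
    with x hx hx5 hlH hlM hl2
  obtain ⟨l, hl⟩ : ∃ l, l = Real.log x := ⟨_, rfl⟩
  rw [← hl] at hlH hlM hl2 hx ⊢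
  have hl1 : 1 ≤ l := le_of_max_le_left hlH
  have hlH' : Real.log (H + 1) ≤ κ * l := by
    have := le_of_max_le_right hlH
    rw [div_le_iff₀ hκ0] at this
    linarith
  have hx0 : (0 : ℝ) < x := Nat.cast_pos.2 (by omega)
  have hx1 : (1 : ℝ) < x := Nat.one_lt_cast.2 (by omega)
  obtain ⟨D, hD⟩ : ∃ D : ℝ, D = (x : ℝ) ^ (1 - κ) := ⟨_, rfl⟩
  obtain ⟨z, hz⟩ : ∃ z : ℝ, z = D ^ (1 / 4 : ℝ) := ⟨_, rfl⟩
  obtain ⟨y, hy⟩ : ∃ y : ℝ, y = D ^ u := ⟨_, rfl⟩
  rw [← hD, ← hz, ← hy] at hx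
  have hD1 : 1 < D := hD ▸ Real.one_lt_rpow hx1 (by linarith)
  have hD0 : 0 < D := by linarith
  have hy1 : 1 < y := hy ▸ Real.one_lt_rpow hD1 (by linarith)
  have hyD : y ≤ D := by
    rw [hy]
    conv_rhs => rw [← Real.rpow_one D]
    exact Real.rpow_le_rpow_of_exponent_le hD1.le hu1.le
  have hzx : (x : ℝ) ^ (1 / 5 : ℝ) ≤ z := by
    rw [hz, hD, ← Real.rpow_mul hx0.le]
    exact Real.rpow_le_rpow_of_exponent_le hx1.le (by linarith)
  have hz2 : 2 ≤ z := by
    refine le_trans ?_ hzx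
    have h : ((2 : ℝ) ^ (5 : ℕ)) ≤ x := by
      norm_num
      exact_mod_cast (show 32 ≤ x by omega)
    rw [show (1 : ℝ) / 5 = ((5 : ℕ) : ℝ)⁻¹ by norm_num]
    exact le_of_eq_of_le (Real.pow_rpow_inv_natCast (by norm_num) (by norm_num)).symm
      (Real.rpow_le_rpow (by positivity) h (by positivity))
  have hly : Real.log y = u * ((1 - κ) * l) := by
    rw [hy, Real.log_rpow hD0, hD, Real.log_rpow hx0, hl]
  obtain ⟨good, hgood⟩ : ∃ good, good = (range x).filter fun n : ℕ => 1 < f.eval (n : ℤ) ∧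
      Ω (value f n) ≤ f.natDegree + 1 ∧ ∀ p ∈ (value f n).primeFactors, x ≤ p ^ 5 := ⟨_, rfl⟩
  rw [← hgood]
  have hsub : (siftedArgs f x z).filter (fun n => 0 < richertWeight f z y n) ⊆
      good ∪ squareArgs f x z y ∪ range n₀ := fun n hn => by
    obtain ⟨hn1, hW⟩ := mem_filter.1 hn
    obtain ⟨hnx, hcop⟩ := mem_filter.1 hn1
    by_cases hn0 : n < n₀
    · exact mem_union_right _ (mem_range.2 hn0)
    by_cases hsq : n ∈ squareArgs f x z y
    · exact mem_union_left _ (mem_union_right _ hsq)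
    refine mem_union_left _ (mem_union_left _ (hgood ▸ mem_filter.2 ⟨hnx, ?_⟩))
    have h2 := hn₀ n (not_lt.1 hn0)
    have hm0 : value f n ≠ 0 := fun h => by
      rw [value, Int.natAbs_eq_zero] at h
      omega
    refine ⟨by omega, ?_, fun p hp => ?_⟩
    · have hsq' : ∀ q ∈ weightPrimes f z y, ¬ q ^ 2 ∣ value f n := fun q hq h =>
        hsq (mem_filter.2 ⟨hnx, q, hq, h⟩)
      have h3 := cardFactors_lt_of_weight hy1 hm0 hcop hsq' hW
      have hv : (value f n : ℝ) ≤ (H + 1) * (x : ℝ) ^ f.natDegree := by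
        refine (abs_eval_le f (mem_range.1 hnx).le (by omega)).trans ?_
        rw [hH]
        exact mul_le_mul_of_nonneg_right (by linarith) (by positivity)
      have hH0 : 0 ≤ H := hH ▸ sum_nonneg fun _ _ => abs_nonneg _
      have hlv : Real.log (value f n) ≤ (G + κ) * l := by
        refine (Real.log_le_log (Nat.cast_pos.2 (Nat.pos_of_ne_zero hm0)) hv).trans ?_
        rw [Real.log_mul (by linarith) (by positivity), Real.log_pow, ← hl, ← hG]
        linarith
      have h4 : Real.log (value f n) / Real.log y ≤ G + 1 / 2 := by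
        refine le_trans ?_ (margin_le hG1 hκ)
        rw [hly, ← hu]
        have hpos : 0 < u * (1 - κ) := mul_pos (by linarith) (by linarith)
        rw [div_le_div_iff₀ (mul_pos (by linarith) (mul_pos (by linarith) (by linarith))) hpos]
        exact (mul_le_mul_of_nonneg_right hlv hpos.le).trans (le_of_eq (by ring))
      have h5 : (Ω (value f n) : ℝ) < ((f.natDegree + 2 : ℕ) : ℝ) := by
        push_cast
        rw [← hG]
        linarith
      exact Nat.lt_succ_iff.1 (Nat.cast_lt.1 h5)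
    · obtain ⟨hpp, hpm, -⟩ := Nat.mem_primeFactors.1 hp
      have hzp : z ≤ p := not_lt.1 fun hlt => by
        have h1 := (prime_dvd_rootProd_iff hpp).2 ⟨hlt, pos_rootMod_of_dvd_value hpp hpm⟩
        exact hpp.one_lt.ne' (Nat.dvd_one.1 (hcop ▸ Nat.dvd_gcd h1 hpm))
      have h := pow_le_pow_left₀ (Real.rpow_nonneg hx0.le _) (hzx.trans hzp) 5
      rw [show (1 : ℝ) / 5 = ((5 : ℕ) : ℝ)⁻¹ by norm_num,
        Real.rpow_inv_natCast_pow hx0.le (by norm_num)] at h
      exact_mod_cast h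
  have hWle : ∑ n ∈ siftedArgs f x z, richertWeight f z y n ≤
      3 / 2 * ((good.card : ℝ) + (squareArgs f x z y).card + n₀) := by
    rw [← sum_filter_add_sum_filter_not (siftedArgs f x z) (fun n => 0 < richertWeight f z y n)]
    refine (add_le_add (sum_le_card_nsmul _ _ (3 / 2) fun n _ => ?_)
      (sum_nonpos fun n hn => not_lt.1 (mem_filter.1 hn).2)).trans ?_
    · rw [richertWeight, sub_le_self_iff]
      exact sum_nonneg fun q hq => (logWeight_mem hy1 (mem_filter.1 hq).1).1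
    · rw [add_zero, nsmul_eq_mul, mul_comm]
      refine mul_le_mul_of_nonneg_left ?_ (by norm_num)
      have := (card_le_card hsub).trans ((card_union_le _ _).trans
        (add_le_add (card_union_le _ _) le_rfl))
      rw [card_range] at this
      exact_mod_cast this
  have hsq := card_squareArgs_le hR x hz2 hyD hD0.le
  have hxl : 0 ≤ (x : ℝ) / l ^ 2 := by positivity
  have hD2 : D ≤ (x : ℝ) / l ^ 2 := by
    rw [hD, Real.rpow_sub hx0, Real.rpow_one]
    exact div_le_div_of_nonneg_left hx0.le (by positivity) hl2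
  have hz' : (x : ℝ) * (2 / z) ≤ 2 * ((x : ℝ) / l ^ 2) := by
    rw [mul_div_assoc', mul_comm (x : ℝ) 2, mul_div_assoc]
    refine mul_le_mul_of_nonneg_left (div_le_div_of_nonneg_left hx0.le (by positivity)
      (hl2.trans ((Real.rpow_le_rpow_of_exponent_le hx1.le ?_).trans hzx))) zero_le_two
    linarith
  have h1x : 1 ≤ (x : ℝ) / l ^ 2 := by linarith
  have hsq' := hsq.trans (mul_le_mul_of_nonneg_left
    (show (x : ℝ) * (2 / z) + D + x * (2 / z) + 1 ≤ 6 * ((x : ℝ) / l ^ 2) by linarith)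
    (Nat.cast_nonneg R))
  have hn0x := mul_le_mul_of_nonneg_left h1x (Nat.cast_nonneg n₀ : (0 : ℝ) ≤ n₀)
  have hfin : M * ((x : ℝ) / l ^ 2) ≤ c * x / l / 3 := by
    rw [div_le_iff₀ hc] at hlM
    calc M * ((x : ℝ) / l ^ 2) ≤ l * c / 3 * ((x : ℝ) / l ^ 2) :=
          mul_le_mul_of_nonneg_right (by linarith) hxl
      _ = _ := by field_simp
  have e : M * ((x : ℝ) / l ^ 2) =
      (R : ℝ) * (6 * ((x : ℝ) / l ^ 2)) + n₀ * ((x : ℝ) / l ^ 2) + (x : ℝ) / l ^ 2 := by
    rw [hM]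
    ring
  rw [show c / 3 * (x : ℝ) / l = c * x / l / 3 by ring]
  linarith

end FA.RichertValues

end
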