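import Fermat.Agent.RichertValues.Mertens
import Fermat.Agent.LinearSieve.Mertens
import Fermat.Agent.SquarefreeValues.Local

/-!
# The density `ρ (d) / d` is linear

For an irreducible polynomial without a fixed prime divisor, `d ↦ ρ (d) / d` satisfies the linear
dimension condition above a threshold, and `∑ ρ (p) / p ≤ log log b - log log a + ε` over
`[a, b)`.
-/

set_option autoImplicit false
set_option linter.style.haveILetI false

noncomputable section

open Polynomial Filter Finset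
open scoped Polynomial Topology

namespace FA.RichertValues

/-- No prime divides every value. -/
def NoFixedPrime (f : ℤ[X]) : Prop := ∀ p : ℕ, p.Prime → ∃ n : ℤ, ¬ (p : ℤ) ∣ f.eval n

theorem rootMod_lt_of_noFixedPrime {f : ℤ[X]} (hf : NoFixedPrime f) {p : ℕ} (hp : p.Prime) :
    rootMod f p < p := by
  haveI : Fact p.Prime := ⟨hp⟩
  refine lt_of_le_of_ne ((card_filter_le _ _).trans (card_range p).le) fun h => ?_
  obtain ⟨n, hn⟩ := hf p hp
  rw [rootMod_eq_zmod] at h
  have h1 : (univ.filter fun x : ZMod p => (f.map (Int.castRingHom (ZMod p))).eval x = 0) = univ :=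
    eq_univ_of_card _ (h.trans (ZMod.card p).symm)
  have h2 : (n : ZMod p) ∈ (univ.filter fun x : ZMod p =>
      (f.map (Int.castRingHom (ZMod p))).eval x = 0) := h1.symm ▸ mem_univ _
  exact hn ((dvd_eval_iff_zmod f p n).2 (mem_filter.1 h2).2)

theorem rootMod_le_natDegree {f : ℤ[X]} (hf : NoFixedPrime f) {p : ℕ} (hp : p.Prime) :
    rootMod f p ≤ f.natDegree := by
  haveI : Fact p.Prime := ⟨hp⟩
  obtain ⟨n, hn⟩ := hf p hp
  have h0 : f.map (Int.castRingHom (ZMod p)) ≠ 0 := fun h =>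
    hn ((dvd_eval_iff_zmod f p n).2 (by rw [h, eval_zero]))
  rw [rootMod_prime_eq_card_roots f h0]
  exact (Multiset.toFinset_card_le _).trans ((card_roots' _).trans natDegree_map_le)

/-- `ρ (d) / d`. -/
def rootDensity (f : ℤ[X]) : ArithmeticFunction ℝ :=
  ⟨fun d => if d = 0 then 0 else (rootMod f d : ℝ) / d, if_pos rfl⟩

theorem rootDensity_apply (f : ℤ[X]) {d : ℕ} (hd : d ≠ 0) :
    rootDensity f d = (rootMod f d : ℝ) / d := if_neg hd

theorem isMultiplicative_rootDensity (f : ℤ[X]) : (rootDensity f).IsMultiplicative := by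
  refine ArithmeticFunction.IsMultiplicative.iff_ne_zero.2 ⟨?_, fun {m n} hm hn h => ?_⟩
  · rw [rootDensity_apply f one_ne_zero, rootMod_one, Nat.cast_one, div_one]
  · rw [rootDensity_apply f (mul_ne_zero hm hn), rootDensity_apply f hm, rootDensity_apply f hn,
      rootMod_mul f h (Nat.pos_of_ne_zero hm) (Nat.pos_of_ne_zero hn), Nat.cast_mul, Nat.cast_mul,
      mul_div_mul_comm]

theorem rootDensity_nonneg (f : ℤ[X]) (d : ℕ) : 0 ≤ rootDensity f d := by
  rcases eq_or_ne d 0 with rfl | hd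
  · simp
  · rw [rootDensity_apply f hd]
    positivity

theorem rootDensity_lt_one {f : ℤ[X]} (hf : NoFixedPrime f) {p : ℕ} (hp : p.Prime) :
    rootDensity f p < 1 := by
  rw [rootDensity_apply f hp.ne_zero, div_lt_one (Nat.cast_pos.2 hp.pos)]
  exact_mod_cast rootMod_lt_of_noFixedPrime hf hp

theorem rootDensity_pos_iff {f : ℤ[X]} {p : ℕ} (hp : p.Prime) :
    0 < rootDensity f p ↔ 0 < rootMod f p := by
  rw [rootDensity_apply f hp.ne_zero, div_pos_iff_of_pos_right (Nat.cast_pos.2 hp.pos)]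
  exact Nat.cast_pos

variable {f : ℤ[X]}

/-- **Mertens over an interval.** -/
theorem exists_sum_rootDensity_le (hirr : Irreducible f) (hd : 0 < f.natDegree) {ε : ℝ}
    (hε : 0 < ε) : ∃ w : ℝ, 8 ≤ w ∧ ∀ (T : Finset ℕ) (a b : ℝ), w ≤ a → a ≤ b →
      (∀ p ∈ T, p.Prime ∧ a ≤ p ∧ (p : ℝ) < b) →
        ∑ p ∈ T, rootDensity f p ≤ Real.log (Real.log b) - Real.log (Real.log a) + ε := by
  obtain ⟨C, hC⟩ := exists_tendsto_rootSum hirr hd
  obtain ⟨N, hN⟩ := Metric.tendsto_atTop.1 hC (ε / 4) (by positivity)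
  refine ⟨max 8 (max ((N : ℝ) + 2) (4 / ε + 1)), le_max_left _ _, fun T a b ha hab hT => ?_⟩
  have ha8 : 8 ≤ a := le_of_max_le_left ha
  have haN : (N : ℝ) + 2 ≤ a := le_of_max_le_left (le_of_max_le_right ha)
  have hae : 4 / ε + 1 ≤ a := le_of_max_le_right (le_of_max_le_right ha)
  obtain ⟨m, hm⟩ : ∃ m, m = ⌈a⌉₊ - 1 := ⟨_, rfl⟩
  obtain ⟨n, hn⟩ : ∃ n, n = ⌈b⌉₊ - 1 := ⟨_, rfl⟩
  have hca : 1 ≤ ⌈a⌉₊ := Nat.ceil_pos.2 (by linarith)
  have hcb : 1 ≤ ⌈b⌉₊ := Nat.ceil_pos.2 (by linarith)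
  have hm1 : a - 1 ≤ m := by
    rw [hm, Nat.cast_sub hca, Nat.cast_one]
    linarith [Nat.le_ceil a]
  have hn1 : (n : ℝ) ≤ b := by
    rw [hn, Nat.cast_sub hcb, Nat.cast_one]
    linarith [Nat.ceil_lt_add_one (show 0 ≤ b by linarith)]
  have hmn : m ≤ n := by
    have := Nat.ceil_mono hab
    omega
  have hNm : N ≤ m := by
    have : (N : ℝ) ≤ m := by linarith
    exact_mod_cast this
  have h1 : ∑ p ∈ T, rootDensity f p ≤ rootSumUpTo f n - rootSumUpTo f m := by
    rw [rootSumUpTo, rootSumUpTo, ← sum_sdiff_eq_sub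
      (filter_subset_filter _ (Icc_subset_Icc_right hmn))]
    refine (sum_le_sum_of_subset_of_nonneg (fun p hp => ?_)
      fun p _ _ => rootDensity_nonneg f p).trans (le_of_eq (sum_congr rfl fun p hp => ?_))
    · obtain ⟨hpp, hpa, hpb⟩ := hT p hp
      have hap : ⌈a⌉₊ ≤ p := Nat.ceil_le.2 hpa
      have hpc : p < ⌈b⌉₊ := Nat.lt_ceil.2 hpb
      refine Finset.mem_sdiff.2 ⟨Finset.mem_filter.2 ⟨Finset.mem_Icc.2
        ⟨hpp.one_le, by omega⟩, hpp⟩, fun h => ?_⟩
      have := (Finset.mem_Icc.1 (Finset.mem_filter.1 h).1).2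
      omega
    · rw [rootDensity_apply f (mem_filter.1 (Finset.mem_sdiff.1 hp).1).2.ne_zero]
  have hn' := abs_lt.1 (Real.dist_eq _ _ ▸ hN n (hNm.trans hmn))
  have hm' := abs_lt.1 (Real.dist_eq _ _ ▸ hN m hNm)
  have hmnR : (m : ℝ) ≤ n := Nat.cast_le.2 hmn
  have hb' : Real.log (Real.log n) ≤ Real.log (Real.log b) :=
    Real.log_le_log (Real.log_pos (by linarith)) (Real.log_le_log (by linarith) hn1)
  have ha' : Real.log (Real.log a) - ε / 2 ≤ Real.log (Real.log m) := by
    have hlm : 1 ≤ Real.log m := by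
      rw [Real.le_log_iff_exp_le (by linarith)]
      linarith [Real.exp_one_lt_d9]
    rcases le_or_gt (Real.log a) (Real.log m) with h | h
    · linarith [Real.log_le_log (Real.log_pos (by linarith : 1 < a)) h]
    · have h2 : Real.log a ≤ Real.log m + ε / 2 := by
        have h3 := Real.log_le_sub_one_of_pos
          (show 0 < a / m from div_pos (by linarith) (by linarith))
        rw [Real.log_div (by linarith) (by linarith)] at h3
        have h4 : a / (m : ℝ) - 1 ≤ ε / 2 := by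
          rw [div_sub_one (by linarith), div_le_iff₀ (by linarith)]
          have : 4 / ε ≤ (m : ℝ) := by linarith
          rw [div_le_iff₀ hε] at this
          linarith
        linarith
      have h5 := Real.log_le_log (by linarith : 0 < Real.log a) h2
      have h6 : Real.log (Real.log m + ε / 2) ≤ Real.log (Real.log m) + ε / 2 := by
        have h7 := Real.log_le_sub_one_of_pos
          (show 0 < (Real.log m + ε / 2) / Real.log m by positivity)
        rw [Real.log_div (by linarith) (by linarith)] at h7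
        have h8 : (Real.log m + ε / 2) / Real.log m - 1 ≤ ε / 2 := by
          rw [div_sub_one (by linarith), add_sub_cancel_left]
          exact div_le_self (by linarith) hlm
        linarith
      linarith
  linarith

/-- **The product over an interval.** -/
theorem exists_prod_rootDensity_le (hirr : Irreducible f) (hd : 0 < f.natDegree)
    (hf : NoFixedPrime f) {ε : ℝ} (hε : 0 < ε) : ∃ w : ℝ, 8 ≤ w ∧
      ∀ (T : Finset ℕ) (a b : ℝ), w ≤ a → a ≤ b → (∀ p ∈ T, p.Prime ∧ a ≤ p ∧ (p : ℝ) < b) →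
        ∏ p ∈ T, (1 - rootDensity f p)⁻¹ ≤ (1 + ε) * Real.log b / Real.log a := by
  obtain ⟨η, hη⟩ : ∃ η, η = Real.log (1 + ε) := ⟨_, rfl⟩
  have hη0 : 0 < η := hη ▸ Real.log_pos (by linarith)
  obtain ⟨w, hw8, hw⟩ := exists_sum_rootDensity_le hirr hd (half_pos hη0)
  obtain ⟨G, hG⟩ : ∃ G : ℝ, G = f.natDegree := ⟨_, rfl⟩
  refine ⟨max w (max (2 * G) (8 * G ^ 2 / η)), le_max_of_le_left hw8, fun T a b ha hab hT => ?_⟩
  have haw : w ≤ a := le_of_max_le_left ha
  have haG : 2 * G ≤ a := le_of_max_le_left (le_of_max_le_right ha)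
  have haη : 8 * G ^ 2 / η ≤ a := le_of_max_le_right (le_of_max_le_right ha)
  have hla : 0 < Real.log a := Real.log_pos (by linarith)
  have hlb : 0 < Real.log b := Real.log_pos (by linarith)
  have hv : ∀ p ∈ T, rootDensity f p ≤ 1 / 2 ∧
      rootDensity f p ^ 2 ≤ G ^ 2 * ((p : ℝ) ^ 2)⁻¹ := fun p hp => by
    obtain ⟨hpp, hpa, -⟩ := hT p hp
    have hp0 : (0 : ℝ) < p := Nat.cast_pos.2 hpp.pos
    have hρ : (rootMod f p : ℝ) ≤ G := hG ▸ Nat.cast_le.2 (rootMod_le_natDegree hf hpp)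
    rw [rootDensity_apply f hpp.ne_zero, div_pow, div_eq_mul_inv]
    refine ⟨?_, ?_⟩
    · rw [← div_eq_mul_inv, div_le_iff₀ hp0]
      linarith
    · rw [div_eq_mul_inv]
      exact mul_le_mul_of_nonneg_right (pow_le_pow_left₀ (Nat.cast_nonneg _) hρ 2) (by positivity)
  refine (prod_le_prod (g := fun p => Real.exp (rootDensity f p + 2 * (G ^ 2 * ((p : ℝ) ^ 2)⁻¹)))
    (fun p hp => inv_nonneg.2 (sub_nonneg.2 (rootDensity_lt_one hf (hT p hp).1).le))
    fun p hp => ?_).trans ?_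
  · obtain ⟨h1, h2⟩ := hv p hp
    refine le_trans ?_ (Real.exp_le_exp.2 (show rootDensity f p + 2 * rootDensity f p ^ 2 ≤ _ by
      linarith))
    refine le_trans ?_ (Real.add_one_le_exp _)
    have h0 := rootDensity_nonneg f p
    rw [inv_le_iff_one_le_mul₀ (by linarith)]
    nlinarith [mul_nonneg (sq_nonneg (rootDensity f p))
      (show 0 ≤ 1 - 2 * rootDensity f p by linarith)]
  · rw [← Real.exp_sum, sum_add_distrib, ← mul_sum, ← mul_sum]
    have h1 := hw T a b haw hab hT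
    have hca : 2 ≤ ⌈a⌉₊ := by
      have : (2 : ℝ) ≤ ⌈a⌉₊ := le_trans (by linarith) (Nat.le_ceil a)
      exact_mod_cast this
    have h2 := LinearSieve.sum_inv_sq_ge_le (T := T) hca fun p hp => Nat.ceil_le.2 (hT p hp).2.1
    have h3 : 2 * (G ^ 2 * ∑ p ∈ T, ((p : ℝ) ^ 2)⁻¹) ≤ η / 2 := by
      calc 2 * (G ^ 2 * ∑ p ∈ T, ((p : ℝ) ^ 2)⁻¹) ≤ 2 * (G ^ 2 * (2 / a)) :=
            mul_le_mul_of_nonneg_left (mul_le_mul_of_nonneg_left (h2.trans
              (div_le_div_of_nonneg_left zero_le_two (by linarith) (Nat.le_ceil a)))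
                (sq_nonneg G)) zero_le_two
        _ ≤ η / 2 := by
            rw [div_le_iff₀ hη0] at haη
            rw [show 2 * (G ^ 2 * (2 / a)) = 4 * G ^ 2 / a by ring, div_le_iff₀ (by linarith)]
            linarith
    refine (Real.exp_le_exp.2 (show _ ≤ η + (Real.log (Real.log b) - Real.log (Real.log a)) by
      linarith)).trans (le_of_eq ?_)
    rw [Real.exp_add, hη, Real.exp_log (by linarith), Real.exp_sub, Real.exp_log hla,
      Real.exp_log hlb, mul_div_assoc]

/-- **The linear dimension condition.** -/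
theorem exists_ratioBound_rootDensity (hirr : Irreducible f) (hd : 0 < f.natDegree)
    (hf : NoFixedPrime f) {ε : ℝ} (hε : 0 < ε) : ∃ w : ℝ, 8 ≤ w ∧ ∀ T : Finset ℕ,
      (∀ p ∈ T, p.Prime ∧ w ≤ p) → LinearSieve.RatioBound T (rootDensity f) ε := by
  obtain ⟨w, hw8, hw⟩ := exists_prod_rootDensity_le hirr hd hf hε
  refine ⟨w, hw8, fun T hT r hr b hb => hw _ r b (hT r hr).2 hb fun p hp => ?_⟩
  exact ⟨(hT p (mem_filter.1 hp).1).1, Nat.cast_le.2 (mem_filter.1 hp).2.1, (mem_filter.1 hp).2.2⟩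

/-- `ρ (d) ≤ K d ^ η` for squarefree `d`. -/
theorem exists_rootMod_le_rpow (hf : NoFixedPrime f) (hd : 0 < f.natDegree) {η : ℝ} (hη : 0 < η) :
    ∃ K : ℝ, 1 ≤ K ∧ ∀ d : ℕ, Squarefree d → (rootMod f d : ℝ) ≤ K * (d : ℝ) ^ η := by
  obtain ⟨G, hG⟩ : ∃ G : ℝ, G = f.natDegree := ⟨_, rfl⟩
  have hG1 : 1 ≤ G := hG ▸ Nat.one_le_cast.2 hd
  obtain ⟨P, hP⟩ : ∃ P : ℕ, P = ⌈G ^ η⁻¹⌉₊ := ⟨_, rfl⟩
  refine ⟨G ^ P, one_le_pow₀ hG1, fun d hsq => ?_⟩
  have hd0 : d ≠ 0 := hsq.ne_zero
  have e : (rootMod f d : ℝ) = ∏ p ∈ d.primeFactors, (rootMod f p : ℝ) := by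
    have hprod := Nat.prod_primeFactors_of_squarefree hsq
    have h : ∀ s : Finset ℕ, (∀ p ∈ s, p.Prime) →
        (rootMod f (∏ p ∈ s, p) : ℝ) = ∏ p ∈ s, (rootMod f p : ℝ) := by
      intro s
      induction s using Finset.induction with
      | empty => simp [rootMod_one]
      | insert a s ha ih =>
        intro hs
        rw [prod_insert ha, prod_insert ha, ← ih fun p hp => hs p (mem_insert_of_mem hp),
          rootMod_mul f ?_ (hs a (mem_insert_self a s)).pos
            (prod_pos fun p hp => (hs p (mem_insert_of_mem hp)).pos), Nat.cast_mul]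
        exact Nat.Coprime.prod_right fun p hp => (Nat.coprime_primes (hs a (mem_insert_self a s))
          (hs p (mem_insert_of_mem hp))).2 (fun h => ha (h ▸ hp))
    rw [← h _ fun p hp => Nat.prime_of_mem_primeFactors hp, hprod]
  rw [e]
  refine (prod_le_prod (g := fun p : ℕ => (if p < P then G else 1) * (p : ℝ) ^ η)
    (fun p _ => Nat.cast_nonneg _) fun p hp => ?_).trans ?_
  · have hpp := Nat.prime_of_mem_primeFactors hp
    have h1 : (1 : ℝ) ≤ (p : ℝ) ^ η := Real.one_le_rpow (Nat.one_le_cast.2 hpp.one_le) hη.le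
    have h2 : (rootMod f p : ℝ) ≤ G := hG ▸ Nat.cast_le.2 (rootMod_le_natDegree hf hpp)
    split_ifs with h
    · exact h2.trans (le_mul_of_one_le_right (by linarith) h1)
    · rw [one_mul]
      refine h2.trans (le_of_eq_of_le (Real.rpow_inv_rpow (by linarith) hη.ne').symm
        (Real.rpow_le_rpow (by positivity) ((Nat.le_ceil _).trans ?_) hη.le))
      rw [← hP]
      exact Nat.cast_le.2 (not_lt.1 h)
  · rw [prod_mul_distrib, Real.finsetProd_rpow _ _ (fun p _ => Nat.cast_nonneg p),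
      ← Nat.cast_prod, Nat.prod_primeFactors_of_squarefree hsq]
    refine mul_le_mul_of_nonneg_right ?_ (Real.rpow_nonneg (Nat.cast_nonneg d) η)
    rw [prod_ite, prod_const, prod_const_one, mul_one]
    refine pow_le_pow_right₀ hG1 ?_
    refine (card_le_card (t := range P) fun p hp => ?_).trans (card_range P).le
    exact mem_range.2 (mem_filter.1 hp).2

end FA.RichertValues

end
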