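import Fermat.Agent.DedekindPrimeIdeals.Fixed
import Mathlib.NumberTheory.NumberField.Ideal.KummerDedekind
import Mathlib.RingTheory.Polynomial.IntegralNormalization
import Mathlib.RingTheory.Polynomial.GaussLemma
import Mathlib.RingTheory.Discriminant
import Mathlib.FieldTheory.IntermediateField.Adjoin.Basic

/-!
# The roots of a polynomial modulo a prime and the primes of degree one

For an irreducible `f ∈ ℤ[X]` and all but finitely many `p`, the roots of `f` modulo `p` are as
many as the prime ideals of norm `p` of the field of a root (Kummer and Dedekind).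
-/

set_option autoImplicit false
set_option linter.style.haveILetI false

noncomputable section

open Polynomial NumberField IsDedekindDomain Ideal UniqueFactorizationMonoid
open scoped Polynomial Classical

namespace FA.RichertValues

/-- The number of roots of `f` modulo `d`. -/
def rootMod (f : ℤ[X]) (d : ℕ) : ℕ :=
  ((Finset.range d).filter fun r : ℕ => (d : ℤ) ∣ f.eval (r : ℤ)).card

theorem rootMod_one (f : ℤ[X]) : rootMod f 1 = 1 := by simp [rootMod]

theorem dvd_eval_iff_zmod (f : ℤ[X]) (d : ℕ) (n : ℤ) :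
    (d : ℤ) ∣ f.eval n ↔ (f.map (Int.castRingHom (ZMod d))).eval (n : ZMod d) = 0 := by
  rw [← eq_intCast (Int.castRingHom (ZMod d)) n, eval_map, eval₂_hom, eq_intCast,
    ZMod.intCast_zmod_eq_zero_iff_dvd]

theorem rootMod_eq_zmod (f : ℤ[X]) (d : ℕ) [NeZero d] :
    rootMod f d = (Finset.univ.filter fun x : ZMod d =>
      (f.map (Int.castRingHom (ZMod d))).eval x = 0).card := by
  refine Finset.card_bij' (fun r _ => (r : ZMod d)) (fun x _ => x.val) (fun r hr => ?_)
    (fun x hx => ?_) (fun r hr => ?_) (fun x _ => ZMod.natCast_zmod_val x)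
  · rw [Finset.mem_filter] at hr ⊢
    refine ⟨Finset.mem_univ _, ?_⟩
    have h := (dvd_eval_iff_zmod f d r).1 hr.2
    rwa [Int.cast_natCast] at h
  · rw [Finset.mem_filter] at hx ⊢
    refine ⟨Finset.mem_range.2 (ZMod.val_lt x), (dvd_eval_iff_zmod f d _).2 ?_⟩
    rw [Int.cast_natCast, ZMod.natCast_zmod_val]
    exact hx.2
  · exact ZMod.val_natCast_of_lt (Finset.mem_range.1 (Finset.mem_filter.1 hr).1)

theorem rootMod_prime_eq_card_roots (f : ℤ[X]) {p : ℕ} [Fact p.Prime]
    (h : f.map (Int.castRingHom (ZMod p)) ≠ 0) :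
    rootMod f p = (f.map (Int.castRingHom (ZMod p))).roots.toFinset.card := by
  rw [rootMod_eq_zmod]
  congr 1
  ext x
  simp [h]

theorem rootMod_mul (f : ℤ[X]) {m n : ℕ} (h : m.Coprime n) (hm : 0 < m) (hn : 0 < n) :
    rootMod f (m * n) = rootMod f m * rootMod f n := by
  have : NeZero m := ⟨hm.ne'⟩
  have : NeZero n := ⟨hn.ne'⟩
  have : NeZero (m * n) := ⟨(Nat.mul_pos hm hn).ne'⟩
  rw [rootMod_eq_zmod, rootMod_eq_zmod, rootMod_eq_zmod, ← Finset.card_product]
  obtain ⟨e, he⟩ : ∃ e, e = ZMod.chineseRemainder h := ⟨_, rfl⟩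
  refine Finset.card_equiv e.toEquiv fun x => ?_
  simp only [Finset.mem_filter, Finset.mem_univ, true_and, Finset.mem_product,
    RingEquiv.toEquiv_eq_coe, EquivLike.coe_coe]
  obtain ⟨k, rfl⟩ := ZMod.intCast_surjective x
  rw [show e (k : ZMod (m * n)) = ((k : ZMod m), (k : ZMod n)) by
    rw [map_intCast]; rfl, ← dvd_eval_iff_zmod, ← dvd_eval_iff_zmod, ← dvd_eval_iff_zmod]
  push_cast
  exact ⟨fun hd => ⟨(dvd_mul_right _ _).trans hd, (dvd_mul_left _ _).trans hd⟩,
    fun hd => (Int.isCoprime_iff_gcd_eq_one.2 (by simpa [Int.gcd] using h)).mul_dvd hd.1 hd.2⟩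

section Field

variable {K : Type} [Field K] [NumberField K]

/-- The number of prime ideals of norm `n`. -/
def normCount (K : Type) [Field K] [NumberField K] (n : ℕ) : ℕ :=
  ((FA.Hecke.primesLE K n).filter fun v => absNorm v.asIdeal = n).card

/-- **Primes of degree one are roots.** -/
theorem normCount_prime_eq {p : ℕ} (hp : p.Prime) {θ : 𝓞 K}
    (hpe : ¬ p ∣ RingOfIntegers.exponent θ) :
    normCount K p = rootMod (minpoly ℤ θ) p := by
  haveI : Fact p.Prime := ⟨hp⟩
  obtain ⟨h, hh⟩ : ∃ h, h = (minpoly ℤ θ).map (Int.castRingHom (ZMod p)) := ⟨_, rfl⟩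
  have hh0 : h ≠ 0 := hh ▸ map_monic_ne_zero (minpoly.monic θ.isIntegral)
  rw [rootMod_prime_eq_card_roots _ (hh ▸ hh0), ← hh]
  have hdeg : ∀ Q : (ZMod p)[X], Q ∈ RingOfIntegers.monicFactorsMod θ p → Q.natDegree = 1 →
      Q = X - C (-Q.coeff 0) := fun Q hQ h1 => by
    have hm : Q.Monic := by
      have h2 : Q ∈ normalizedFactors h := hh ▸ Multiset.mem_toFinset.1 hQ
      exact ((Polynomial.mem_normalizedFactors_iff hh0).1 h2).2.1
    conv_lhs => rw [hm.eq_X_add_C h1]
    rw [map_neg, sub_neg_eq_add]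
  have e1 : h.roots.toFinset.card =
      ((RingOfIntegers.monicFactorsMod θ p).filter fun Q => Q.natDegree = 1).card := by
    refine Finset.card_bij' (fun a _ => X - C a) (fun Q _ => -Q.coeff 0) (fun a ha => ?_)
      (fun Q hQ => ?_) (fun a _ => by simp) (fun Q hQ => ?_)
    · rw [Multiset.mem_toFinset, mem_roots hh0] at ha
      refine Finset.mem_filter.2 ⟨Multiset.mem_toFinset.2 ?_, natDegree_X_sub_C a⟩
      rw [← hh, Polynomial.mem_normalizedFactors_iff hh0]
      exact ⟨irreducible_X_sub_C a, monic_X_sub_C a, dvd_iff_isRoot.2 ha⟩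
    · rw [Finset.mem_filter] at hQ
      have h2 : Q ∈ normalizedFactors h := hh ▸ Multiset.mem_toFinset.1 hQ.1
      rw [Multiset.mem_toFinset, mem_roots hh0, ← dvd_iff_isRoot, ← hdeg Q hQ.1 hQ.2]
      exact ((Polynomial.mem_normalizedFactors_iff hh0).1 h2).2.2
    · rw [Finset.mem_filter] at hQ
      exact (hdeg Q hQ.1 hQ.2).symm
  rw [e1, normCount]
  obtain ⟨E, hE⟩ : ∃ E, E = NumberField.Ideal.primesOverSpanEquivMonicFactorsMod hpe := ⟨_, rfl⟩
  have hspan : span {(p : ℤ)} ≠ ⊥ := by simp [hp.ne_zero]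
  have hnorm : ∀ P : primesOver (span {(p : ℤ)}) (𝓞 K),
      absNorm (P : Ideal (𝓞 K)) = p ^ (E P : (ZMod p)[X]).natDegree := fun P => by
    obtain ⟨P, hP1, hP2⟩ := P
    haveI := hP1
    haveI := hP2
    haveI hpm : (span {(p : ℤ)}).IsMaximal := Int.ideal_span_isMaximal_of_prime p
    haveI : P.IsMaximal := hP1.isMaximal fun h0 => hspan (by
      subst h0
      exact hP2.over.trans (Ideal.comap_bot_of_injective _
        (FaithfulSMul.algebraMap_injective ℤ (𝓞 K))))
    rw [absNorm_eq_pow_inertiaDeg' P hp, inertiaDeg'_eq_inertiaDeg]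
    congr 1
    have h3 := NumberField.Ideal.inertiaDeg_primesOverSpanEquivMonicFactorsMod_symm_apply' hpe
      (E ⟨P, hP1, hP2⟩).2
    rw [hE] at h3 ⊢
    rwa [Subtype.coe_eta, Equiv.symm_apply_apply] at h3
  have hover : ∀ v : HeightOneSpectrum (𝓞 K), absNorm v.asIdeal = p →
      v.asIdeal ∈ primesOver (span {(p : ℤ)}) (𝓞 K) := fun v hv => by
    refine ⟨v.isPrime, ⟨?_⟩⟩
    refine ((Int.ideal_span_isMaximal_of_prime p).eq_of_le ?_ ?_)
    · exact Ideal.comap_ne_top _ v.isPrime.ne_top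
    · rw [span_singleton_le_iff_mem, Ideal.under_def, Ideal.mem_comap, map_natCast]
      exact hv ▸ absNorm_mem v.asIdeal
  refine Finset.card_bij (fun v hv => (E ⟨v.asIdeal, hover v (Finset.mem_filter.1 hv).2⟩ :
    (ZMod p)[X])) (fun v hv => ?_) (fun v hv w hw h => ?_) fun Q hQ => ?_
  · obtain ⟨P, hPd⟩ : ∃ P : primesOver (span {(p : ℤ)}) (𝓞 K),
      P = ⟨v.asIdeal, hover v (Finset.mem_filter.1 hv).2⟩ := ⟨_, rfl⟩
    rw [← hPd]
    refine Finset.mem_filter.2 ⟨(E P).2, ?_⟩
    have h1 := hnorm P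
    have hv2 : absNorm (P : Ideal (𝓞 K)) = p := by
      rw [hPd]
      exact (Finset.mem_filter.1 hv).2
    exact (Nat.pow_eq_self_iff hp.one_lt).1 (h1.symm.trans hv2)
  · exact HeightOneSpectrum.ext (congrArg Subtype.val (E.injective (Subtype.ext h)))
  · rw [Finset.mem_filter] at hQ
    obtain ⟨P, hP⟩ := E.surjective ⟨Q, hQ.1⟩
    have hn : absNorm (P : Ideal (𝓞 K)) = p := by rw [hnorm P, hP, hQ.2, pow_one]
    have hne : (P : Ideal (𝓞 K)) ≠ ⊥ := fun h0 => hp.ne_zero (by rw [← hn, h0, absNorm_bot])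
    refine ⟨⟨P, P.2.1, hne⟩, Finset.mem_filter.2 ⟨FA.Hecke.mem_primesLE.2 hn.le, hn⟩, ?_⟩
    simp [hP]

theorem exponent_ne_zero_of_adjoin {θ : 𝓞 K}
    (h : IntermediateField.adjoin ℚ {(θ : K)} = ⊤) : RingOfIntegers.exponent θ ≠ 0 := by
  have hi : IsIntegral ℚ (θ : K) := Algebra.IsIntegral.isIntegral _
  obtain ⟨B, hB⟩ : ∃ B : PowerBasis ℚ K, B.gen = (θ : K) :=
    ⟨(IntermediateField.adjoin.powerBasis hi).map
      ((IntermediateField.equivOfEq h).trans IntermediateField.topEquiv), by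
      simp [PowerBasis.map]⟩
  have hBint : IsIntegral ℤ B.gen := hB ▸ θ.2
  obtain ⟨D, hD⟩ := IsIntegrallyClosed.isIntegral_iff.1
    (Algebra.discr_isIntegral (K := ℚ) (b := B.basis) (R := ℤ) fun i => by
      rw [B.basis_eq_pow]
      exact hBint.pow _)
  rw [algebraMap_int_eq, eq_intCast] at hD
  have hD0 : D ≠ 0 := fun h0 => Algebra.discr_not_zero_of_basis ℚ B.basis (by
    rw [← hD, h0, Int.cast_zero])
  have hmem : ((D : ℤ) : 𝓞 K) ∈ conductor ℤ θ := mem_conductor_iff.2 fun y => by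
    have h1 := Algebra.discr_mul_isIntegral_mem_adjoin ℚ hBint (z := (y : K)) y.2
    rw [← hD, hB, Algebra.smul_def, eq_ratCast, Rat.cast_intCast] at h1
    have h2 : Algebra.adjoin ℤ {(θ : K)} =
        (Algebra.adjoin ℤ {θ}).map (IsScalarTower.toAlgHom ℤ (𝓞 K) K) := by
      rw [AlgHom.map_adjoin, Set.image_singleton]
      rfl
    rw [h2] at h1
    obtain ⟨z, hz, hze⟩ := Subalgebra.mem_map.1 h1
    have : z = (D : 𝓞 K) * y := RingOfIntegers.ext (by
      simp only [IsScalarTower.coe_toAlgHom'] at hze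
      show algebraMap (𝓞 K) K z = algebraMap (𝓞 K) K ((D : 𝓞 K) * y)
      rw [map_mul, map_intCast]
      exact hze)
    exact this ▸ hz
  intro h0
  rw [RingOfIntegers.exponent, absNorm_eq_zero_iff] at h0
  have : D ∈ under ℤ (conductor ℤ θ) := by
    rw [Ideal.under_def, Ideal.mem_comap]
    simpa using hmem
  rw [h0, Ideal.mem_bot] at this
  exact hD0 this

end Field

theorem integralNormalization_eval (f : ℤ[X]) (hd : 0 < f.natDegree) {d : ℕ} (x : ZMod d) :
    ((integralNormalization f).map (Int.castRingHom (ZMod d))).eval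
        ((f.leadingCoeff : ZMod d) * x) =
      (f.leadingCoeff : ZMod d) ^ (f.natDegree - 1) *
        (f.map (Int.castRingHom (ZMod d))).eval x := by
  rw [eval_map, eval_map, ← eq_intCast (Int.castRingHom (ZMod d)) f.leadingCoeff,
    integralNormalization_eval₂_leadingCoeff_mul hd]

theorem rootMod_integralNormalization (f : ℤ[X]) (hd : 0 < f.natDegree) {p : ℕ} (hp : p.Prime)
    (ha : ¬ (p : ℤ) ∣ f.leadingCoeff) :
    rootMod f p = rootMod (integralNormalization f) p := by
  haveI : Fact p.Prime := ⟨hp⟩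
  have ha0 : (f.leadingCoeff : ZMod p) ≠ 0 := fun h => ha
    ((ZMod.intCast_zmod_eq_zero_iff_dvd _ _).1 h)
  rw [rootMod_eq_zmod, rootMod_eq_zmod]
  refine Finset.card_equiv (Equiv.mulLeft₀ _ ha0) fun x => ?_
  simp only [Finset.mem_filter, Finset.mem_univ, true_and, Equiv.mulLeft₀_apply,
    integralNormalization_eval f hd]
  constructor
  · exact fun h => by rw [h, mul_zero]
  · exact fun h => (mul_eq_zero.1 h).resolve_left (pow_ne_zero _ ha0)

/-- **Roots are counted by the primes of a number field.** -/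
theorem exists_field_of_irreducible {f : ℤ[X]} (hirr : Irreducible f) (hd : 0 < f.natDegree) :
    ∃ (K : Type) (_ : Field K) (_ : NumberField K) (N : ℕ),
      ∀ p : ℕ, p.Prime → N < p → normCount K p = rootMod f p := by
  obtain ⟨g, hg⟩ : ∃ g, g = f.map (Int.castRingHom ℚ) := ⟨_, rfl⟩
  have hgirr : Irreducible g :=
    hg ▸ (Polynomial.IsPrimitive.Int.irreducible_iff_irreducible_map_cast
      (hirr.isPrimitive hd.ne')).1 hirr
  haveI : Fact (Irreducible g) := ⟨hgirr⟩
  haveI : FiniteDimensional ℚ (AdjoinRoot g) := (AdjoinRoot.powerBasis hgirr.ne_zero).finite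
  haveI : CharZero (AdjoinRoot g) := charZero_of_injective_algebraMap
    (algebraMap ℚ (AdjoinRoot g)).injective
  haveI : NumberField (AdjoinRoot g) := { }
  have hf0 : f ≠ 0 := hirr.ne_zero
  obtain ⟨α, hα⟩ : ∃ α : AdjoinRoot g, α = AdjoinRoot.root g := ⟨_, rfl⟩
  have hαf : aeval α f = 0 := by
    have h := AdjoinRoot.eval₂_root g
    rw [← AdjoinRoot.algebraMap_eq, ← aeval_def] at h
    rw [← aeval_map_algebraMap ℚ, algebraMap_int_eq, ← hg, hα]
    exact h
  obtain ⟨a, ha⟩ : ∃ a : ℤ, a = f.leadingCoeff := ⟨_, rfl⟩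
  obtain ⟨b, hb⟩ : ∃ b : AdjoinRoot g, b = (a : AdjoinRoot g) * α := ⟨_, rfl⟩
  have hb0 : aeval b (integralNormalization f) = 0 := by
    rw [hb, aeval_def, ha, ← eq_intCast (algebraMap ℤ (AdjoinRoot g)),
      integralNormalization_eval₂_leadingCoeff_mul hd, ← aeval_def, hαf, mul_zero]
  have hbint : IsIntegral ℤ b :=
    ⟨integralNormalization f, monic_integralNormalization hf0, hb0⟩
  obtain ⟨θ, hθ⟩ : ∃ θ : 𝓞 (AdjoinRoot g), θ = ⟨b, hbint⟩ := ⟨_, rfl⟩
  have ha0 : (a : ℚ) ≠ 0 := Int.cast_ne_zero.2 (ha ▸ leadingCoeff_ne_zero.2 hf0)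
  have hadj : IntermediateField.adjoin ℚ {(θ : AdjoinRoot g)} = ⊤ := by
    rw [eq_top_iff, ← IntermediateField.toSubalgebra_le_toSubalgebra,
      IntermediateField.top_toSubalgebra]
    refine le_of_eq_of_le (AdjoinRoot.adjoinRoot_eq_top (f := g)).symm ?_
    refine Algebra.adjoin_le (Set.singleton_subset_iff.2 ?_)
    have h1 := IntermediateField.mem_adjoin_simple_self ℚ (θ : AdjoinRoot g)
    have h2 := IntermediateField.smul_mem (IntermediateField.adjoin ℚ {(θ : AdjoinRoot g)})
      h1 (x := (a : ℚ)⁻¹)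
    have hθb : (θ : AdjoinRoot g) = b := by rw [hθ]; rfl
    have e : (a : ℚ)⁻¹ • (θ : AdjoinRoot g) = AdjoinRoot.root g := by
      rw [hθb, hb, ← hα, Algebra.smul_def, eq_ratCast, ← mul_assoc, Rat.cast_inv, Rat.cast_intCast,
        inv_mul_cancel₀ (by exact_mod_cast ha0), one_mul]
    rw [e] at h2
    exact h2
  have hmin : minpoly ℤ θ = integralNormalization f := by
    have hb' : IsIntegral ℚ b := Algebra.IsIntegral.isIntegral _
    have hdeg : (minpoly ℚ b).natDegree = g.natDegree := by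
      rw [← IntermediateField.adjoin.finrank hb',
        show IntermediateField.adjoin ℚ {b} = ⊤ from by rw [hθ] at hadj; exact hadj,
        IntermediateField.finrank_top', (AdjoinRoot.powerBasis hgirr.ne_zero).finrank,
        AdjoinRoot.powerBasis_dim]
    refine map_injective (Int.castRingHom ℚ) Int.cast_injective ?_
    have h1 : (integralNormalization f).map (Int.castRingHom ℚ) = minpoly ℚ b := by
      refine eq_of_monic_of_dvd_of_natDegree_le (minpoly.monic hb')
        ((monic_integralNormalization hf0).map _) (minpoly.dvd ℚ b ?_) ?_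
      · rw [← algebraMap_int_eq, aeval_map_algebraMap, hb0]
      · rw [(monic_integralNormalization hf0).natDegree_map, natDegree_integralNormalization,
          hdeg, hg, natDegree_map_eq_of_injective Int.cast_injective]
    rw [h1, ← algebraMap_int_eq, minpoly.isIntegrallyClosed_eq_field_fractions' ℚ hbint, hθ,
      ← minpoly.algebraMap_eq (RingOfIntegers.coe_injective (K := AdjoinRoot g))]
    rfl
  refine ⟨AdjoinRoot g, inferInstance, inferInstance,
    max a.natAbs (RingOfIntegers.exponent θ), fun p hp hN => ?_⟩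
  have hpe : ¬ p ∣ RingOfIntegers.exponent θ := fun h => absurd
    (Nat.le_of_dvd (Nat.pos_of_ne_zero (exponent_ne_zero_of_adjoin hadj)) h)
    (not_le.2 (lt_of_le_of_lt (le_max_right _ _) hN))
  have hpa : ¬ (p : ℤ) ∣ f.leadingCoeff := fun h => by
    rw [← ha, Int.natCast_dvd] at h
    have := Nat.le_of_dvd (Int.natAbs_pos.2 (ha ▸ leadingCoeff_ne_zero.2 hf0)) h
    omega
  rw [normCount_prime_eq hp hpe, hmin, rootMod_integralNormalization f hd hp hpa]

end FA.RichertValues

end
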