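import Fermat.Agent.RichertValues.Sieve
import Fermat.Agent.LinearSieve.Weighted
import Mathlib.NumberTheory.Harmonic.Bounds

/-!
# The logarithmic weights of Richert

With `D = x ^ (1 - κ)`, `z = D ^ (1/4)`, `y = D ^ u`, the sum of
`3/2 - ∑_{q ∣ f n, z ≤ q < y} (1 - log q / log y)` over the `n < x` with `f n` free of primes
below `z` is `≫ x / log x`, for every `u` in `(1/4, 1)`.
-/

set_option autoImplicit false

noncomputable section

open Polynomial Finset Filter
open scoped Polynomial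
open FA.CombinatorialSieve (remSum sieveProduct)
open FA.LinearSieve (linearConst sieveUpperFn sieveLowerFn smallProduct largePrimes RatioBound)

namespace FA.RichertValues

variable {f : ℤ[X]}

/-- The sifting product `V z`. -/
def vProd (f : ℤ[X]) (z : ℝ) : ℝ := ∏ p ∈ rootPrimes f z, (1 - rootDensity f p)

theorem vProd_pos (hf : NoFixedPrime f) (z : ℝ) : 0 < vProd f z :=
  prod_pos fun _ hp => sub_pos.2 (rootDensity_lt_one hf (mem_rootPrimes.1 hp).1)

theorem sieveProduct_valueSieve (hf : NoFixedPrime f) (x q : ℕ) (Z : ℝ) :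
    sieveProduct (valueSieve f hf x q Z) = vProd f Z := by
  rw [sieveProduct, show (valueSieve f hf x q Z).prodPrimes = rootProd f Z from rfl,
    primeFactors_rootProd, vProd]
  rfl

theorem vProd_eq_mul (f : ℤ[X]) {a b : ℝ} (hab : a ≤ b) :
    vProd f b = vProd f a *
      ∏ p ∈ (rootPrimes f b).filter (fun p : ℕ => a ≤ p), (1 - rootDensity f p) := by
  rw [vProd, vProd, ← prod_filter_not_mul_prod_filter (rootPrimes f b) (fun p : ℕ => a ≤ p)]
  congr 1
  refine prod_congr ?_ fun _ _ => rfl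
  ext p
  simp only [mem_filter, mem_rootPrimes, not_le]
  exact ⟨fun h => ⟨h.1.1, h.2, h.1.2.2⟩, fun h => ⟨⟨h.1, h.2.1.trans_le hab, h.2.2⟩, h.2.1⟩⟩

theorem vProd_le_of_bound (hf : NoFixedPrime f) {ε a b : ℝ} (hab : a ≤ b)
    (h : ∏ p ∈ (rootPrimes f b).filter (fun p : ℕ => a ≤ p), (1 - rootDensity f p)⁻¹ ≤
      (1 + ε) * Real.log b / Real.log a) :
    vProd f a ≤ vProd f b * ((1 + ε) * Real.log b / Real.log a) := by
  refine le_of_eq_of_le ?_ (mul_le_mul_of_nonneg_left h (vProd_pos hf b).le)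
  rw [vProd_eq_mul f hab, prod_inv_distrib, mul_assoc, mul_inv_cancel₀, mul_one]
  exact (prod_pos fun _ hp => sub_pos.2 (rootDensity_lt_one hf
    (mem_rootPrimes.1 (mem_filter.1 hp).1).1)).ne'

/-- `∏ p` over the primes below the threshold. -/
def thresholdProd (w : ℝ) : ℕ := ∏ p ∈ (range ⌈w⌉₊).filter Nat.Prime, p

theorem smallProduct_valueSieve_le (hf : NoFixedPrime f) (x q : ℕ) (Z w : ℝ) :
    smallProduct (valueSieve f hf x q Z) w ≤ thresholdProd w := by
  rw [smallProduct, thresholdProd, show (valueSieve f hf x q Z).prodPrimes = rootProd f Z from rfl,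
    primeFactors_rootProd]
  refine Nat.le_of_dvd (prod_pos fun p hp => (mem_filter.1 hp).2.pos)
    (prod_dvd_prod_of_subset _ _ _ fun p hp => ?_)
  rw [mem_filter, not_le] at hp
  rw [mem_filter, mem_range, Nat.lt_ceil]
  exact ⟨hp.2, (mem_rootPrimes.1 hp.1).1⟩

theorem remSum_mono (S : BoundingSieve) {D D' : ℝ} (h : D ≤ D') : remSum S D ≤ remSum S D' :=
  sum_le_sum_of_subset_of_nonneg
    (fun _ hd => mem_filter.2 ⟨(mem_filter.1 hd).1, (mem_filter.1 hd).2.trans_le h⟩)
    fun _ _ _ => abs_nonneg _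

theorem largePrimes_valueSieve (hf : NoFixedPrime f) (x q : ℕ) (Z w : ℝ) :
    ∀ p ∈ largePrimes (valueSieve f hf x q Z) w, p.Prime ∧ w ≤ p := fun p hp => by
  rw [largePrimes, mem_filter, show (valueSieve f hf x q Z).prodPrimes = rootProd f Z from rfl,
    primeFactors_rootProd] at hp
  exact ⟨(mem_rootPrimes.1 hp.1).1, hp.2⟩

theorem lt_of_mem_valueSieve (hf : NoFixedPrime f) (x q : ℕ) (Z : ℝ) :
    ∀ p ∈ (valueSieve f hf x q Z).prodPrimes.primeFactors, (p : ℝ) < Z := fun p hp => by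
  rw [show (valueSieve f hf x q Z).prodPrimes = rootProd f Z from rfl, primeFactors_rootProd] at hp
  exact (mem_rootPrimes.1 hp).2.1

/-- The sifted `n`. -/
def siftedArgs (f : ℤ[X]) (x : ℕ) (z : ℝ) : Finset ℕ :=
  (range x).filter fun n => (rootProd f z).Coprime (value f n)

/-- The primes that are weighted. -/
def weightPrimes (f : ℤ[X]) (z y : ℝ) : Finset ℕ :=
  (rootPrimes f y).filter fun q : ℕ => z ≤ q

/-- The weight of `q`. -/
def logWeight (y : ℝ) (q : ℕ) : ℝ := 1 - Real.log q / Real.log y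

/-- The weight of `n`. -/
def richertWeight (f : ℤ[X]) (z y : ℝ) (n : ℕ) : ℝ :=
  3 / 2 - ∑ q ∈ (weightPrimes f z y).filter (fun q => q ∣ value f n), logWeight y q

theorem logWeight_mem {y : ℝ} {z : ℝ} {q : ℕ} (hy : 1 < y) (hq : q ∈ weightPrimes f z y) :
    0 ≤ logWeight y q ∧ logWeight y q ≤ 1 := by
  obtain ⟨hqp, hqy, -⟩ := mem_rootPrimes.1 (mem_filter.1 hq).1
  have hly := Real.log_pos hy
  have hq0 : 0 ≤ Real.log q := Real.log_natCast_nonneg q
  have h1 : Real.log q / Real.log y ≤ 1 :=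
    (div_le_one hly).2 (Real.log_le_log (Nat.cast_pos.2 hqp.pos) hqy.le)
  have h2 : 0 ≤ Real.log q / Real.log y := div_nonneg hq0 hly.le
  rw [logWeight]
  constructor <;> linarith

theorem sum_richertWeight (hf : NoFixedPrime f) (x : ℕ) (z y : ℝ) :
    ∑ n ∈ siftedArgs f x z, richertWeight f z y n =
      3 / 2 * (valueSieve f hf x 1 z).siftedSum -
        ∑ q ∈ weightPrimes f z y, logWeight y q * (valueSieve f hf x q z).siftedSum := by
  simp only [richertWeight, sum_sub_distrib, sum_const, nsmul_eq_mul, valueSieve_siftedSum,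
    one_dvd, true_and, sum_filter]
  congr 1
  · rw [siftedArgs]
    ring
  · rw [sum_comm]
    refine sum_congr rfl fun q _ => ?_
    rw [← sum_filter, sum_const, nsmul_eq_mul, mul_comm, siftedArgs, filter_filter,
      filter_congr fun n _ => and_comm]

theorem three_halves_log_margin {A δ : ℝ} (hA : 3 ≤ A) (hδ : δ = 1 / 100) :
    1 / 10 ≤ 3 / 2 * (A * Real.log 3 / 4 - δ) -
      (1 + 1 / 100) * (A + 3 * δ) / 4 * (Real.log 4 + 1 / 100) := by
  obtain ⟨hl, -⟩ := LinearSieve.log_three_bounds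
  have h2l := Real.log_two_gt_d9
  have h2u := Real.log_two_lt_d9
  have e4 : Real.log 4 = 2 * Real.log 2 := by
    rw [show (4 : ℝ) = 2 ^ 2 by norm_num, Real.log_pow]
    norm_num
  have h3 : 1.0974 ≤ Real.log 3 := by linarith
  have h4 : Real.log 4 ≤ 1.3863 := by linarith
  have c1 := mul_le_mul_of_nonneg_left h3 (show 0 ≤ A by linarith)
  have c2 := mul_le_mul_of_nonneg_left h4 (show 0 ≤ A + 3 * δ by linarith)
  subst hδ
  norm_num at c1 c2 ⊢
  linarith

/-- **One weighted prime.** -/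
theorem logWeight_mul_siftedSum_le (hirr : Irreducible f) (hd : 0 < f.natDegree)
    (hf : NoFixedPrime f) : ∃ w : ℝ, 8 ≤ w ∧ ∀ (x : ℕ) (D u : ℝ), 1 / 4 < u → u < 1 →
      w ≤ D ^ (1 - u) → w ≤ D ^ (1 / 4 : ℝ) → 1 < D →
      ∀ q ∈ weightPrimes f (D ^ (1 / 4 : ℝ)) (D ^ u),
        logWeight (D ^ u) q * (valueSieve f hf x q (D ^ (1 / 4 : ℝ))).siftedSum ≤
          (x : ℝ) * vProd f (D ^ (1 / 4 : ℝ)) *
              ((1 + 1 / 100) * (linearConst + 3 * (1 / 100)) / 4) * rootDensity f q +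
            remSum (valueSieve f hf x q (min (D ^ (1 / 4 : ℝ)) (D / q)))
              (D / q * thresholdProd w) := by
  obtain ⟨w₁, hw₁, hprod⟩ :=
    exists_prod_rootDensity_le hirr hd hf (show (0 : ℝ) < 1 / 100 by norm_num)
  obtain ⟨w₂, -, hratio⟩ :=
    exists_ratioBound_rootDensity hirr hd hf (show (0 : ℝ) < 1 / 3000000 by norm_num)
  obtain ⟨w, hw⟩ : ∃ w, w = max w₁ w₂ := ⟨_, rfl⟩
  refine ⟨w, hw ▸ le_max_of_le_left hw₁, fun x D u hu4 hu1 hwu hwz hD1 q hq => ?_⟩
  have hw8 : 8 ≤ w := hw ▸ le_max_of_le_left hw₁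
  have hD0 : 0 < D := by linarith
  obtain ⟨L, hL⟩ : ∃ L, L = Real.log D := ⟨_, rfl⟩
  have hL0 : 0 < L := hL ▸ Real.log_pos hD1
  obtain ⟨z, hz⟩ : ∃ z, z = D ^ (1 / 4 : ℝ) := ⟨_, rfl⟩
  rw [← hz] at hq hwz ⊢
  obtain ⟨hq', hzq⟩ := mem_filter.1 hq
  obtain ⟨hqp, hqy, -⟩ := mem_rootPrimes.1 hq'
  have hq0 : (0 : ℝ) < q := Nat.cast_pos.2 hqp.pos
  have hlz : Real.log z = L / 4 := by
    rw [hz, Real.log_rpow hD0, hL]
    ring
  have hly : Real.log (D ^ u) = u * L := by rw [Real.log_rpow hD0, hL]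
  have hlq1 : L / 4 ≤ Real.log q := hlz ▸ Real.log_le_log (by linarith) hzq
  have hlq2 : Real.log q < u * L := hly ▸ Real.log_lt_log hq0 hqy
  have hDq : D ^ (1 - u) ≤ D / q := by
    rw [Real.rpow_sub hD0, Real.rpow_one]
    exact div_le_div_of_nonneg_left hD0.le hq0 hqy.le
  obtain ⟨Z, hZ⟩ : ∃ Z, Z = min z (D / q) := ⟨_, rfl⟩
  rw [← hZ]
  have hwZ : w ≤ Z := hZ ▸ le_min hwz (hwu.trans hDq)
  have hlZ0 : 0 < Real.log Z := Real.log_pos (by linarith)
  have hlDq : Real.log (D / q) = L - Real.log q := by rw [Real.log_div hD0.ne' hq0.ne', hL]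
  obtain ⟨s, hs⟩ : ∃ s, s = 4 * (L - Real.log q) / L := ⟨_, rfl⟩
  have hs0 : 0 < s := by
    rw [hs]
    refine div_pos ?_ hL0
    have : u * L < 1 * L := mul_lt_mul_of_pos_right hu1 hL0
    linarith
  have hs3 : s ≤ 3 := by
    rw [hs, div_le_iff₀ hL0]
    linarith
  -- the upper bound at the level `D / q`
  have hup : (valueSieve f hf x q Z).siftedSum ≤
      (x : ℝ) * rootDensity f q * vProd f Z * (linearConst / max s 1 + 1 / 100) +
        remSum (valueSieve f hf x q Z) (D / q * thresholdProd w) := by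
    have hDq0 : 0 < D / (q : ℝ) := div_pos hD0 hq0
    have h := (LinearSieve.linear_sieve (δ := 1 / 100) (ε := 1 / 3000000) (w := w) (by norm_num)
      (by norm_num) (by norm_num) (by norm_num) (valueSieve f hf x q Z)
      (show (0 : ℝ) ≤ (x : ℝ) * rootDensity f q from
        mul_nonneg (Nat.cast_nonneg x) (rootDensity_nonneg f q))
      (lt_of_mem_valueSieve hf x q Z) (by linarith) hDq0
      (hratio _ fun p hp => ⟨(largePrimes_valueSieve hf x q Z w p hp).1,
        (hw ▸ le_max_right w₁ w₂).trans (largePrimes_valueSieve hf x q Z w p hp).2⟩)).1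
      (Real.log_le_log (by linarith) (hZ ▸ min_le_right _ _))
    have hsz : Real.log (D / q) / Real.log Z = max s 1 := by
      have e : Real.log (D / q) / Real.log z = s := by rw [hlDq, hlz, hs]; field_simp
      have h2 : 0 < D / (q : ℝ) := div_pos hD0 hq0
      rcases le_total z (D / q) with hc | hc
      · rw [hZ, min_eq_left hc, e, max_eq_left]
        rw [← e, one_le_div (hlz ▸ by linarith)]
        exact Real.log_le_log (by linarith) hc
      · rw [hZ, min_eq_right hc] at hlZ0 ⊢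
        rw [div_self hlZ0.ne', max_eq_right]
        rw [← e, div_le_one (hlz ▸ by linarith)]
        exact Real.log_le_log h2 hc
    rw [sieveProduct_valueSieve, hsz, LinearSieve.sieveUpperFn_eq (le_max_right _ _)
      (max_le hs3 (by norm_num))] at h
    refine h.trans (add_le_add le_rfl (remSum_mono _ ?_))
    exact mul_le_mul_of_nonneg_left (Nat.cast_le.2 (smallProduct_valueSieve_le hf x q Z w)) hDq0.le
  -- back to the level `z`
  have hmono : (valueSieve f hf x q z).siftedSum ≤ (valueSieve f hf x q Z).siftedSum := by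
    rw [valueSieve_siftedSum, valueSieve_siftedSum]
    refine Nat.cast_le.2 (card_le_card fun n hn => ?_)
    obtain ⟨h1, h2, h3⟩ := mem_filter.1 hn
    exact mem_filter.2 ⟨h1, h2, h3.coprime_dvd_left
      (prod_dvd_prod_of_subset _ _ _ (rootPrimes_mono (hZ ▸ min_le_left _ _)))⟩
  have hV : vProd f Z ≤ vProd f z * ((1 + 1 / 100) / min s 1) := by
    refine (vProd_le_of_bound hf (hZ ▸ min_le_left _ _) (hprod _ Z z
      ((hw ▸ le_max_left w₁ w₂).trans hwZ) (hZ ▸ min_le_left _ _) fun p hp =>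
        ⟨(mem_rootPrimes.1 (mem_filter.1 hp).1).1, (mem_filter.1 hp).2,
          (mem_rootPrimes.1 (mem_filter.1 hp).1).2.1⟩)).trans (le_of_eq ?_)
    congr 1
    rcases le_total z (D / q) with hc | hc
    · have h1 : 1 ≤ s := by
        have h2 := Real.log_le_log (by linarith : (0 : ℝ) < z) hc
        rw [hlDq, hlz] at h2
        rw [hs, le_div_iff₀ hL0]
        linarith
      rw [hZ, min_eq_left hc, min_eq_right h1, hlz]
      field_simp
    · have h1 : s ≤ 1 := by
        have h2 := Real.log_le_log (div_pos hD0 hq0) hc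
        rw [hlDq, hlz] at h2
        rw [hs, div_le_iff₀ hL0]
        linarith
      rw [hZ, min_eq_right hc, min_eq_left h1, hlDq, hlz, hs]
      have : L - Real.log q ≠ 0 := by
        have : u * L < 1 * L := mul_lt_mul_of_pos_right hu1 hL0
        linarith
      field_simp
  have hA := LinearSieve.three_le_linearConst
  have hFs : (1 + 1 / 100) / min s 1 * (linearConst / max s 1 + 1 / 100) ≤
      (1 + 1 / 100) * (linearConst + 3 * (1 / 100)) / s := by
    rcases le_total s 1 with h | h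
    · rw [min_eq_left h, max_eq_right h, div_one, div_mul_eq_mul_div]
      gcongr
      norm_num
    · rw [min_eq_right h, max_eq_left h, div_one, mul_div_assoc]
      refine mul_le_mul_of_nonneg_left ?_ (by norm_num)
      rw [div_add' _ _ _ hs0.ne']
      exact div_le_div_of_nonneg_right (by linarith) hs0.le
  obtain ⟨hw0, hw1⟩ := logWeight_mem (Real.one_lt_rpow hD1 (by linarith)) hq
  have hR : 0 ≤ remSum (valueSieve f hf x q Z) (D / q * thresholdProd w) :=
    sum_nonneg fun _ _ => abs_nonneg _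
  have hpt : logWeight (D ^ u) q / s ≤ 1 / 4 := by
    rw [logWeight, hly, hs, div_div_eq_mul_div, div_le_iff₀ (by
      have : u * L < 1 * L := mul_lt_mul_of_pos_right hu1 hL0
      linarith), one_sub_div (by positivity), div_mul_eq_mul_div, div_le_iff₀ (by positivity)]
    have h1 : 0 ≤ (1 - u) * Real.log q := mul_nonneg (by linarith) (by linarith)
    nlinarith
  have hnn : 0 ≤ (x : ℝ) * rootDensity f q :=
    mul_nonneg (Nat.cast_nonneg x) (rootDensity_nonneg f q)
  have hFnn : 0 ≤ linearConst / max s 1 + 1 / 100 := by positivity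
  calc logWeight (D ^ u) q * (valueSieve f hf x q z).siftedSum
      ≤ logWeight (D ^ u) q * ((x : ℝ) * rootDensity f q *
          (vProd f z * ((1 + 1 / 100) * (linearConst + 3 * (1 / 100)) / s)) +
            remSum (valueSieve f hf x q Z) (D / q * thresholdProd w)) := by
        refine mul_le_mul_of_nonneg_left ((hmono.trans hup).trans (add_le_add ?_ le_rfl)) hw0
        rw [mul_assoc ((x : ℝ) * rootDensity f q)]
        refine mul_le_mul_of_nonneg_left ((mul_le_mul_of_nonneg_right hV hFnn).trans ?_) hnn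
        rw [mul_assoc]
        exact mul_le_mul_of_nonneg_left hFs (vProd_pos hf z).le
    _ = logWeight (D ^ u) q / s * ((x : ℝ) * rootDensity f q *
          (vProd f z * ((1 + 1 / 100) * (linearConst + 3 * (1 / 100))))) +
          logWeight (D ^ u) q * remSum (valueSieve f hf x q Z) (D / q * thresholdProd w) := by ring
    _ ≤ 1 / 4 * ((x : ℝ) * rootDensity f q *
          (vProd f z * ((1 + 1 / 100) * (linearConst + 3 * (1 / 100))))) +
          remSum (valueSieve f hf x q Z) (D / q * thresholdProd w) := by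
        refine add_le_add (mul_le_mul_of_nonneg_right hpt (mul_nonneg hnn
          (mul_nonneg (vProd_pos hf z).le (by linarith)))) ?_
        exact mul_le_of_le_one_left hR hw1
    _ = _ := by ring

set_option maxHeartbeats 800000 in
/-- **The weighted sum is large.** -/
theorem exists_weighted_ge (hirr : Irreducible f) (hd : 0 < f.natDegree) (hf : NoFixedPrime f)
    {κ u : ℝ} (hκ : 0 < κ) (hκ1 : κ ≤ 1 / 2) (hu4 : 1 / 4 < u) (hu1 : u < 1) :
    ∃ c : ℝ, 0 < c ∧ ∀ᶠ x : ℕ in atTop, c * x / Real.log x ≤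
      ∑ n ∈ siftedArgs f x ((((x : ℝ) ^ (1 - κ)) ^ (1 / 4 : ℝ))),
        richertWeight f ((((x : ℝ) ^ (1 - κ)) ^ (1 / 4 : ℝ))) (((x : ℝ) ^ (1 - κ)) ^ u) n := by
  obtain ⟨w₀, hw₀, hone⟩ := logWeight_mul_siftedSum_le hirr hd hf
  obtain ⟨w₁, -, hsum⟩ := exists_sum_rootDensity_le hirr hd (show (0 : ℝ) < 1 / 100 by norm_num)
  obtain ⟨w₂, -, hprod⟩ :=
    exists_prod_rootDensity_le hirr hd hf (show (0 : ℝ) < 1 / 100 by norm_num)
  obtain ⟨w₃, -, hratio⟩ :=
    exists_ratioBound_rootDensity hirr hd hf (show (0 : ℝ) < 1 / 3000000 by norm_num)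
  obtain ⟨w, hw⟩ : ∃ w, w = max (max w₀ w₁) (max w₂ w₃) := ⟨_, rfl⟩
  have hw8 : 8 ≤ w := hw ▸ le_max_of_le_left (le_max_of_le_left hw₀)
  obtain ⟨W, hW⟩ : ∃ W : ℝ, W = (thresholdProd w₀ : ℝ) + thresholdProd w₃ + 1 := ⟨_, rfl⟩
  obtain ⟨K, hK1, hKd⟩ := exists_rootMod_le_rpow hf hd hκ
  obtain ⟨c₀, hc₀⟩ : ∃ c : ℝ, c = vProd f w * Real.log w / (1 + 1 / 100) := ⟨_, rfl⟩
  have hc00 : 0 < c₀ := hc₀ ▸ div_pos (mul_pos (vProd_pos hf w) (Real.log_pos (by linarith)))
    (by norm_num)
  obtain ⟨G, hG⟩ : ∃ G : ℝ, G = f.natDegree := ⟨_, rfl⟩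
  have hG1 : 1 ≤ G := hG ▸ Nat.one_le_cast.2 hd
  have hW1 : 1 ≤ W := hW ▸ by linarith [(Nat.cast_nonneg (thresholdProd w₀) : (0 : ℝ) ≤ _),
    (Nat.cast_nonneg (thresholdProd w₃) : (0 : ℝ) ≤ _)]
  obtain ⟨M, hM⟩ : ∃ M : ℝ, M = G * K * W ^ κ * (4 * W + 4) := ⟨_, rfl⟩
  refine ⟨c₀ / 20, by positivity, ?_⟩
  obtain ⟨e, he⟩ : ∃ e : ℝ, e = min ((1 - κ) * (1 / 4)) ((1 - κ) * (1 - u)) := ⟨_, rfl⟩
  have he0 : 0 < e := he ▸ lt_min (by nlinarith) (by nlinarith)
  filter_upwards [((tendsto_rpow_atTop he0).comp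
      (tendsto_natCast_atTop_atTop (R := ℝ))).eventually_ge_atTop w,
    eventually_ge_atTop 3, BombieriVinogradov.eventually_log_ge (max 1 (40 * M / c₀)),
    BombieriVinogradov.eventually_log_pow_le 3 (show (0 : ℝ) < κ ^ 2 by positivity)]
    with x hxw hx3 hlM hl3
  simp only [Function.comp_apply] at hxw
  obtain ⟨l, hl⟩ : ∃ l, l = Real.log x := ⟨_, rfl⟩
  rw [← hl] at hlM hl3 ⊢
  have hl1 : 1 ≤ l := le_of_max_le_left hlM
  have hx0 : (0 : ℝ) < x := Nat.cast_pos.2 (by omega)
  have hx1 : (1 : ℝ) < x := Nat.one_lt_cast.2 (by omega)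
  obtain ⟨D, hD⟩ : ∃ D : ℝ, D = (x : ℝ) ^ (1 - κ) := ⟨_, rfl⟩
  obtain ⟨z, hz⟩ : ∃ z : ℝ, z = D ^ (1 / 4 : ℝ) := ⟨_, rfl⟩
  obtain ⟨y, hy⟩ : ∃ y : ℝ, y = D ^ u := ⟨_, rfl⟩
  rw [← hD, ← hz, ← hy]
  have hD1 : 1 < D := hD ▸ Real.one_lt_rpow hx1 (by linarith)
  have hD0 : 0 < D := by linarith
  have hwz : w ≤ z := hxw.trans (by
    rw [hz, hD, ← Real.rpow_mul hx0.le, he]
    exact Real.rpow_le_rpow_of_exponent_le hx1.le (min_le_left _ _))
  have hwu : w ≤ D ^ (1 - u) := hxw.trans (by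
    rw [hD, ← Real.rpow_mul hx0.le, he]
    exact Real.rpow_le_rpow_of_exponent_le hx1.le (min_le_right _ _))
  have hzy : z ≤ y := hz ▸ hy ▸ Real.rpow_le_rpow_of_exponent_le hD1.le hu4.le
  have hyD : y ≤ D := by
    rw [hy]
    conv_rhs => rw [← Real.rpow_one D]
    exact Real.rpow_le_rpow_of_exponent_le hD1.le hu1.le
  have hlz : Real.log z = (1 - κ) * l / 4 := by
    rw [hz, Real.log_rpow hD0, hD, Real.log_rpow hx0, hl]
    ring
  have hly : Real.log y = u * ((1 - κ) * l) := by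
    rw [hy, Real.log_rpow hD0, hD, Real.log_rpow hx0, hl]
  have hlz0 : 0 < Real.log z := hlz ▸ by nlinarith
  obtain ⟨V, hV⟩ : ∃ V, V = vProd f z := ⟨_, rfl⟩
  have hV0 : 0 < V := hV ▸ vProd_pos hf z
  have hVlow : c₀ / l ≤ V := by
    have hT : ∀ p ∈ (rootPrimes f z).filter (fun p : ℕ => w ≤ p),
        p.Prime ∧ w ≤ p ∧ (p : ℝ) < z := fun p hp =>
      ⟨(mem_rootPrimes.1 (mem_filter.1 hp).1).1, (mem_filter.1 hp).2,
        (mem_rootPrimes.1 (mem_filter.1 hp).1).2.1⟩
    have h := vProd_le_of_bound hf hwz (hprod _ w z (hw ▸ le_max_of_le_right (le_max_left _ _))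
      hwz hT)
    rw [← hV, mul_div_assoc', le_div_iff₀ (Real.log_pos (by linarith))] at h
    have hz4 : Real.log z ≤ l := by
      rw [hlz]
      linarith [mul_nonneg hκ.le (show 0 ≤ l by linarith)]
    rw [hc₀, div_div, div_le_iff₀ (by positivity)]
    calc vProd f w * Real.log w ≤ V * ((1 + 1 / 100) * Real.log z) := h
      _ ≤ V * ((1 + 1 / 100) * l) :=
          mul_le_mul_of_nonneg_left (mul_le_mul_of_nonneg_left hz4 (by norm_num)) hV0.le
  have hA := LinearSieve.three_le_linearConst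
  have hlo : (x : ℝ) * V * (linearConst * Real.log 3 / 4 - 1 / 100) -
      remSum (valueSieve f hf x 1 z) (D * thresholdProd w₃) ≤
        (valueSieve f hf x 1 z).siftedSum := by
    have h := (LinearSieve.linear_sieve (δ := 1 / 100) (ε := 1 / 3000000) (w := w₃) (by norm_num)
      (by norm_num) (by norm_num) (by norm_num) (valueSieve f hf x 1 z)
      (show (0 : ℝ) ≤ (x : ℝ) * rootDensity f 1 from
        mul_nonneg (Nat.cast_nonneg x) (rootDensity_nonneg f 1))
      (lt_of_mem_valueSieve hf x 1 z) (by linarith) hD0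
      (hratio _ (largePrimes_valueSieve hf x 1 z w₃))).2
      (by rw [hz, Real.log_rpow hD0]; linarith [Real.log_pos hD1])
    have hs : Real.log D / Real.log z = 4 := by
      rw [hz, Real.log_rpow hD0]
      field_simp [(Real.log_pos hD1).ne']
    have htot : (valueSieve f hf x 1 z).totalMass = (x : ℝ) := by
      show (x : ℝ) * rootDensity f 1 = x
      rw [(isMultiplicative_rootDensity f).map_one, mul_one]
    rw [sieveProduct_valueSieve, hs, LinearSieve.sieveLowerFn_eq (by norm_num) le_rfl, htot,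
      ← hV, show (4 : ℝ) - 1 = 3 by norm_num] at h
    have hm : remSum (valueSieve f hf x 1 z) (D * smallProduct (valueSieve f hf x 1 z) w₃) ≤
        remSum (valueSieve f hf x 1 z) (D * thresholdProd w₃) := remSum_mono _
      (mul_le_mul_of_nonneg_left (Nat.cast_le.2 (smallProduct_valueSieve_le hf x 1 z w₃)) hD0.le)
    linarith
  have hup : ∑ q ∈ weightPrimes f z y, logWeight y q * (valueSieve f hf x q z).siftedSum ≤
      (x : ℝ) * V * ((1 + 1 / 100) * (linearConst + 3 * (1 / 100)) / 4) * (Real.log 4 + 1 / 100) +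
        ∑ q ∈ weightPrimes f z y,
          remSum (valueSieve f hf x q (min z (D / q))) (D / q * thresholdProd w₀) := by
    have hw0 : w₀ ≤ w := hw ▸ le_max_of_le_left (le_max_left _ _)
    refine (sum_le_sum fun q hq => ?_).trans ((sum_add_distrib).trans_le (add_le_add
      (le_of_eq_of_le (mul_sum _ (fun q => rootDensity f q) _).symm
        (mul_le_mul_of_nonneg_left ?_ ?_)) le_rfl))
    · rw [hz, hy] at hq
      rw [hV, hz, hy]
      exact hone x D u hu4 hu1 (hw0.trans hwu) (hz ▸ hw0.trans hwz) hD1 q hq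
    · refine (hsum _ z y ((hw ▸ le_max_of_le_left (le_max_right _ _)).trans hwz) hzy fun p hp =>
        ⟨(mem_rootPrimes.1 (mem_filter.1 hp).1).1, (mem_filter.1 hp).2,
          (mem_rootPrimes.1 (mem_filter.1 hp).1).2.1⟩).trans (add_le_add ?_ le_rfl)
      rw [← Real.log_div (hly ▸ (mul_pos (by linarith) (mul_pos (by linarith) (by linarith))).ne')
        hlz0.ne', hly, hlz,
        show u * ((1 - κ) * l) / ((1 - κ) * l / 4) = 4 * u by
          have h1 : (1 - κ) ≠ 0 := by linarith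
          have h2 : l ≠ 0 := by linarith
          field_simp]
      exact Real.log_le_log (by linarith) (by linarith)
    · have : 0 ≤ linearConst := by linarith
      positivity
  -- the remainders
  obtain ⟨B, hB⟩ : ∃ B : ℝ, B = G * (K * (D * W) ^ κ) := ⟨_, rfl⟩
  have hK0 : (0 : ℝ) ≤ K := by linarith
  have hB0 : 0 ≤ B := by rw [hB]; positivity
  have hrem : ∀ (q : ℕ) (Z : ℝ) (t : ℕ), 1 ≤ q → (t : ℝ) ≤ W →
      (∀ d, d ∣ rootProd f Z → q.Coprime d) → rootMod f q ≤ f.natDegree →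
      remSum (valueSieve f hf x q Z) (D / q * t) ≤ B * (D * W * (q : ℝ)⁻¹ + 1) :=
    fun q Z t hq htW hcop hρ => by
      have hq1 : (1 : ℝ) ≤ q := Nat.one_le_cast.2 hq
      refine (remSum_valueSieve_le f hf x hκ.le hK0 hKd hq hcop (by positivity)).trans ?_
      have hle : D / q * t ≤ D * W * (q : ℝ)⁻¹ := by
        rw [div_eq_mul_inv, mul_right_comm D W]
        exact mul_le_mul_of_nonneg_left htW (by positivity)
      have hle2 : D / q * t ≤ D * W := mul_le_mul (div_le_self hD0.le hq1) htW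
        (Nat.cast_nonneg _) hD0.le
      calc (rootMod f q : ℝ) * (K * ((D / q * t + 1) * (D / q * t) ^ κ))
          ≤ G * (K * ((D * W * (q : ℝ)⁻¹ + 1) * (D * W) ^ κ)) := by
            rw [hG]
            gcongr
        _ = _ := by rw [hB]; ring
  have hR1 : remSum (valueSieve f hf x 1 z) (D * thresholdProd w₃) ≤ B * (D * W + 1) := by
    have h := hrem 1 z (thresholdProd w₃) le_rfl
      (hW ▸ by linarith [(Nat.cast_nonneg (thresholdProd w₀) : (0 : ℝ) ≤ _)])
      (fun d _ => Nat.coprime_one_left d) (by rw [rootMod_one]; exact hd)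
    simpa using h
  have hRq : ∑ q ∈ weightPrimes f z y,
      remSum (valueSieve f hf x q (min z (D / q))) (D / q * thresholdProd w₀) ≤
        B * (D * W * (1 + l) + (D + 1)) := by
    refine (sum_le_sum fun q hq => hrem q _ _ (mem_rootPrimes.1 (mem_filter.1 hq).1).1.one_le
      (hW ▸ by linarith [(Nat.cast_nonneg (thresholdProd w₃) : (0 : ℝ) ≤ _)])
      (fun d hd' => coprime_of_lt (mem_rootPrimes.1 (mem_filter.1 hq).1).1
        ((min_le_left _ _).trans (mem_filter.1 hq).2) hd')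
      (rootMod_le_natDegree hf (mem_rootPrimes.1 (mem_filter.1 hq).1).1)).trans ?_
    rw [← mul_sum, sum_add_distrib, ← mul_sum, sum_const, nsmul_eq_mul, mul_one]
    have hsub : weightPrimes f z y ⊆ Icc 1 ⌊D⌋₊ := fun q hq => by
      obtain ⟨hp, hpy, -⟩ := mem_rootPrimes.1 (mem_filter.1 hq).1
      exact mem_Icc.2 ⟨hp.one_le, Nat.le_floor (hpy.le.trans hyD)⟩
    refine mul_le_mul_of_nonneg_left (add_le_add (mul_le_mul_of_nonneg_left ?_ (by positivity)) ?_)
      hB0
    · refine (sum_le_sum_of_subset_of_nonneg hsub fun q _ _ => by positivity).trans ?_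
      have h := harmonic_le_one_add_log ⌊D⌋₊
      rw [harmonic_eq_sum_Icc] at h
      push_cast at h
      refine h.trans (add_le_add le_rfl ?_)
      rcases Nat.eq_zero_or_pos ⌊D⌋₊ with h0 | h0
      · rw [h0, Nat.cast_zero, Real.log_zero]
        linarith
      · refine (Real.log_le_log (Nat.cast_pos.2 h0) (Nat.floor_le hD0.le)).trans ?_
        rw [hD, Real.log_rpow hx0, hl]
        exact mul_le_of_le_one_left (Real.log_natCast_nonneg x) (by linarith)
    · refine (Nat.cast_le.2 (card_le_card hsub)).trans ?_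
      rw [Nat.card_Icc, Nat.add_sub_cancel]
      linarith [Nat.floor_le hD0.le]
  have hBD : B * D ≤ G * K * W ^ κ * ((x : ℝ) / l ^ 3) := by
    rw [hB, Real.mul_rpow hD0.le (by linarith)]
    have e1 : D ^ κ * D = (x : ℝ) / (x : ℝ) ^ (κ ^ 2) := by
      conv_lhs => arg 2; rw [← Real.rpow_one D]
      rw [← Real.rpow_add hD0, hD, ← Real.rpow_mul hx0.le]
      rw [eq_div_iff (Real.rpow_pos_of_pos hx0 _).ne', ← Real.rpow_add hx0]
      conv_rhs => rw [← Real.rpow_one (x : ℝ)]
      ring_nf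
    calc G * (K * (D ^ κ * W ^ κ)) * D = G * K * W ^ κ * (D ^ κ * D) := by ring
      _ ≤ _ := by
          rw [e1]
          exact mul_le_mul_of_nonneg_left (div_le_div_of_nonneg_left hx0.le (by positivity) hl3)
            (by positivity)
  have hmain := mul_le_mul_of_nonneg_left (three_halves_log_margin hA rfl)
    (show 0 ≤ (x : ℝ) * V by positivity)
  have hXV : c₀ * x / l ≤ (x : ℝ) * V := by
    have := mul_le_mul_of_nonneg_left hVlow hx0.le
    linarith [show c₀ * x / l = (x : ℝ) * (c₀ / l) by ring]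
  have hB1 : B * 1 ≤ B * D := mul_le_mul_of_nonneg_left hD1.le hB0
  have hBl : B * D ≤ B * D * l := le_mul_of_one_le_right (by positivity) hl1
  have hBWl : B * D * W ≤ B * D * W * l := le_mul_of_one_le_right (by positivity) hl1
  have hfin : B * D * ((4 * W + 4) * l) ≤ c₀ * x / l / 20 := by
    have h1 : M ≤ c₀ * l / 40 := by
      have := le_of_max_le_right hlM
      rw [div_le_iff₀ hc00] at this
      linarith
    calc B * D * ((4 * W + 4) * l) ≤ G * K * W ^ κ * ((x : ℝ) / l ^ 3) * ((4 * W + 4) * l) :=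
          mul_le_mul_of_nonneg_right hBD (by positivity)
      _ = M * ((x : ℝ) / l ^ 2) := by
          rw [hM]
          field_simp
      _ ≤ c₀ * l / 40 * ((x : ℝ) / l ^ 2) := mul_le_mul_of_nonneg_right h1 (by positivity)
      _ = c₀ * x / l / 40 := by field_simp
      _ ≤ _ := by
          have : 0 ≤ c₀ * x / l := by positivity
          linarith
  have hBDl : 0 ≤ B * D * l := by positivity
  have hBDWl : 0 ≤ B * D * W * l := by positivity
  rw [sum_richertWeight hf, show c₀ / 20 * x / l = c₀ * x / l / 20 by ring]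
  linarith

end FA.RichertValues

end
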